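import Fermat.Agent.TW.Shape.Main

/-!
# PROGRAM G (S56), node F4: the level two shape on all of `D_P`

For the basis `b` and the scalar `ξ` of `IsLevelTwoAt` (the clauses are taken as hypotheses, so that
the lemma applies to the witnesses of `shape_at_p`): every `σ ∈ D_P` with `σ ζ = ζ` and
`σ π = ζ^n π` acts by `c · diag(ξ^n, ξ^(np))` for a scalar `c`, and every `σ ∈ D_P` with
`σ ζ = ζ^p` swaps the two lines.  (An element of `D_P` acting on `ℚ(ζ, π)` like an inertia element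
need not be in `I_P`: it may differ from it by an element fixing `ℚ(ζ, π)`, which acts by a
scalar.)
-/

set_option autoImplicit false
set_option linter.style.haveILetI false
set_option linter.unusedSectionVars false

namespace Fermat.Agent.TW.Shape

local notation "Qb" => AlgebraicClosure ℚ
local notation "GQ" => (AlgebraicClosure ℚ ≃ₐ[ℚ] AlgebraicClosure ℚ)

theorem levelTwo_ext {k : Type} [Field k] {p : ℕ} (hp : p.Prime) (P : ValuationSubring Qb)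
    (hP : P.LiesOverPrime p) (ρbar : ResidualGaloisRep k) {π ζ : Qb}
    (hπ : π ^ (p ^ 2 - 1) = -(p : Qb)) (hζ : IsPrimitiveRoot ζ (p ^ 2 - 1))
    {b : Module.Basis (Fin 2) k ρbar.V} {ξ : k}
    (hkey : ∀ s ∈ P.inertiaSubgroupIn ℚ, ∀ n : ℕ, s π = ζ ^ n * π →
      ρbar.ρ s (b 0) = ξ ^ n • b 0 ∧ ρbar.ρ s (b 1) = ξ ^ (n * p) • b 1)
    (hfrob : ∀ φ : GQ, P.IsFrobeniusAt φ p →
      (∃ c : k, ρbar.ρ φ (b 0) = c • b 1) ∧ (∃ c : k, ρbar.ρ φ (b 1) = c • b 0))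
    (hscal : ∀ σ ∈ P.decompositionSubgroup ℚ, σ π = π → σ ζ = ζ →
      ∃ c : k, ρbar.ρ σ = c • (1 : Module.End k ρbar.V)) :
    (∀ σ ∈ P.decompositionSubgroup ℚ, σ ζ = ζ → ∀ n : ℕ, σ π = ζ ^ n * π →
      ∃ c : k, ρbar.ρ σ (b 0) = (c * ξ ^ n) • b 0 ∧ ρbar.ρ σ (b 1) = (c * ξ ^ (n * p)) • b 1) ∧
    (∀ σ ∈ P.decompositionSubgroup ℚ, σ ζ = ζ ^ p →
      (∃ c : k, ρbar.ρ σ (b 0) = c • b 1) ∧ (∃ c : k, ρbar.ρ σ (b 1) = c • b 0)) := by
  have hp0 : p ≠ 0 := hp.ne_zero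
  have he_pos : 0 < p ^ 2 - 1 := by
    have h1 : 2 ≤ p := hp.two_le
    have h2 : 4 ≤ p ^ 2 := by nlinarith
    omega
  have he_cop : ¬ p ∣ p ^ 2 - 1 := not_dvd_sq_sub_one hp
  have hζe : ζ ^ (p ^ 2 - 1) = 1 := hζ.pow_eq_one
  have hID : ∀ s ∈ P.inertiaSubgroupIn ℚ, s ∈ P.decompositionSubgroup ℚ := fun s hs =>
    Fermat.Agent.S05.mem_decompositionSubgroup_of_mem_inertiaSubgroupIn P hs
  refine ⟨?_, ?_⟩
  · intro σ hσ hσζ n hσπ
    have hζn : (ζ ^ n) ^ (p ^ 2 - 1) = 1 := by rw [← pow_mul, mul_comm, pow_mul, hζe, one_pow]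
    obtain ⟨t, ht, htπ⟩ := exists_mem_inertia_apply_eq hp P hP he_pos hπ hζn
    have htζ : t ζ = ζ := apply_eq_of_mem_inertia_of_pow_eq_one hp P hP he_cop hζe ht
    have huD : t⁻¹ * σ ∈ P.decompositionSubgroup ℚ := mul_mem (inv_mem (hID t ht)) hσ
    have huπ : (t⁻¹ * σ) π = π := by
      rw [AlgEquiv.mul_apply, hσπ, ← htπ]
      exact t.symm_apply_apply π
    have huζ : (t⁻¹ * σ) ζ = ζ := by
      rw [AlgEquiv.mul_apply, hσζ]
      conv_lhs => rw [← htζ]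
      exact t.symm_apply_apply ζ
    obtain ⟨c, hc⟩ := hscal _ huD huπ huζ
    obtain ⟨h0, h1⟩ := hkey t ht n htπ
    have hσeq : ρbar.ρ σ = ρbar.ρ t * ρbar.ρ (t⁻¹ * σ) := by
      rw [← map_mul, mul_inv_cancel_left]
    refine ⟨c, ?_, ?_⟩
    · rw [hσeq, hc, Module.End.mul_apply, LinearMap.smul_apply, Module.End.one_apply, map_smul, h0,
        smul_smul]
    · rw [hσeq, hc, Module.End.mul_apply, LinearMap.smul_apply, Module.End.one_apply, map_smul, h1,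
        smul_smul]
  · intro σ hσ hσζ
    obtain ⟨m, -, hσπ⟩ := exists_apply_eq_pow_mul he_pos hπ hp0 hζ σ
    obtain ⟨φ, hφ, hφπ⟩ := exists_isFrobeniusAt_apply_eq hp P hP he_pos hπ
    have hφζ : φ ζ = ζ ^ p := IsFrobeniusAt_apply_of_pow_eq_one hp P hP he_cop hζe hφ
    have hζm : (ζ ^ m) ^ (p ^ 2 - 1) = 1 := by rw [← pow_mul, mul_comm, pow_mul, hζe, one_pow]
    obtain ⟨t, ht, htπ⟩ := exists_mem_inertia_apply_eq hp P hP he_pos hπ hζm
    have htζp : t (ζ ^ p) = ζ ^ p := by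
      apply apply_eq_of_mem_inertia_of_pow_eq_one hp P hP he_cop _ ht
      rw [← pow_mul, mul_comm, pow_mul, hζe, one_pow]
    have hφD : φ ∈ P.decompositionSubgroup ℚ := hφ.mem_decompositionSubgroup
    have huD : (t * φ)⁻¹ * σ ∈ P.decompositionSubgroup ℚ :=
      mul_mem (inv_mem (mul_mem (hID t ht) hφD)) hσ
    have h1 : (t * φ) π = σ π := by rw [AlgEquiv.mul_apply, hφπ, htπ, hσπ]
    have h2 : (t * φ) ζ = σ ζ := by rw [AlgEquiv.mul_apply, hφζ, htζp, hσζ]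
    have huπ : ((t * φ)⁻¹ * σ) π = π := by
      rw [AlgEquiv.mul_apply, ← h1]
      exact (t * φ).symm_apply_apply π
    have huζ : ((t * φ)⁻¹ * σ) ζ = ζ := by
      rw [AlgEquiv.mul_apply, ← h2]
      exact (t * φ).symm_apply_apply ζ
    obtain ⟨c, hc⟩ := hscal _ huD huπ huζ
    obtain ⟨⟨c0, hf0⟩, ⟨c1, hf1⟩⟩ := hfrob φ hφ
    obtain ⟨ht0, ht1⟩ := hkey t ht m htπ
    have hσeq : ρbar.ρ σ = ρbar.ρ t * ρbar.ρ φ * ρbar.ρ ((t * φ)⁻¹ * σ) := by
      rw [← map_mul, ← map_mul, mul_inv_cancel_left]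
    refine ⟨⟨c * c0 * ξ ^ (m * p), ?_⟩, ⟨c * c1 * ξ ^ m, ?_⟩⟩
    · rw [hσeq, hc, Module.End.mul_apply, Module.End.mul_apply, LinearMap.smul_apply,
        Module.End.one_apply, map_smul, hf0, map_smul, map_smul, ht1, smul_smul, smul_smul]
    · rw [hσeq, hc, Module.End.mul_apply, Module.End.mul_apply, LinearMap.smul_apply,
        Module.End.one_apply, map_smul, hf1, map_smul, map_smul, ht0, smul_smul, smul_smul]

end Fermat.Agent.TW.Shape
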