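import Mathlib

/-!
# PROGRAM G (S56), node F4 (shapes of `ρbar|G_p`): the abstract core

`k` a finite field of characteristic `p`, `V` a `2`-dimensional `k`-space, `ρ : G →* End_k V` a
representation of a group `G` with subgroups `I ≤ D` ("inertia" and "decomposition" group) carrying
**tame data** (`TameData`): a subgroup `W ≤ I` normalised by `D` acting through elements of
`p`-power order ("wild inertia"), `τ ∈ I` generating `ρ(I)` modulo `ρ(W)` with `ρ(τ)^e ∈ ρ(W)` for
some `e` prime to `p`, and `φ ∈ D` generating `ρ(D)` modulo `ρ(I)` with `φ τ φ⁻¹ ≡ τ^p`.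

`shape`: if all characteristic polynomials of `ρ(D)` split over `k`, then either
* (R) there is a `D`-stable line, or
* (S) `W` acts trivially, and in a suitable basis `ρ(τ) = diag(ζ, ζ^p)` with `ζ^p ≠ ζ`,
  `ζ^(p^2) = ζ` (a fundamental character of level `2`), and `ρ(φ)` swaps the two eigenlines.
-/

set_option autoImplicit false
set_option linter.style.haveILetI false
set_option linter.unusedSectionVars false

open Polynomial

namespace Fermat.Agent.TW.Shape

variable {k : Type*} [Field k] {V : Type*} [AddCommGroup V] [Module k V]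
variable {G : Type*} [Group G]

/-- **Tame data** of a representation `ρ` for subgroups `I ≤ D` at the prime `p`. -/
structure TameData (p : ℕ) (ρ : G →* Module.End k V) (D I : Subgroup G) where
  /-- wild inertia -/
  W : Subgroup G
  W_le : W ≤ I
  I_le : I ≤ D
  conj_W : ∀ d ∈ D, ∀ w ∈ W, d * w * d⁻¹ ∈ W
  wild : ∀ w ∈ W, ∃ a : ℕ, ρ w ^ p ^ a = 1
  /-- a generator of tame inertia -/
  τ : G
  τ_mem : τ ∈ I
  gen : ∀ s ∈ I, ∃ j : ℕ, ∃ w ∈ W, ρ s = ρ τ ^ j * ρ w
  /-- the order of tame inertia -/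
  e : ℕ
  e_pos : 0 < e
  e_cop : ¬ p ∣ e
  τ_pow : ∃ w ∈ W, ρ τ ^ e = ρ w
  /-- a Frobenius element -/
  φ : G
  φ_mem : φ ∈ D
  frob_gen : ∀ d ∈ D, ∃ j : ℕ, ∃ s ∈ I, ρ d = ρ φ ^ j * ρ s
  rel : ∃ w ∈ W, ρ φ * ρ τ = ρ τ ^ p * ρ w * ρ φ

section Fixed

variable {p : ℕ} [Fact p.Prime] [CharP k p] [Finite k] [Module.Finite k V]

/-- the vectors fixed by a subgroup, as a submodule. -/
def fixedSub (ρ : G →* Module.End k V) (W : Subgroup G) : Submodule k V where
  carrier := {v | ∀ w ∈ W, ρ w v = v}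
  add_mem' := fun {a b} ha hb w hw => by rw [map_add, ha w hw, hb w hw]
  zero_mem' := fun w _ => map_zero _
  smul_mem' := fun c {a} ha w hw => by rw [map_smul, ha w hw]

theorem mem_fixedSub {ρ : G →* Module.End k V} {W : Subgroup G} {v : V} :
    v ∈ fixedSub ρ W ↔ ∀ w ∈ W, ρ w v = v := Iff.rfl

omit [Finite k] [Module.Finite k V] [Fact p.Prime] [CharP k p] in
theorem fixedSub_stable {ρ : G →* Module.End k V} {W D : Subgroup G}
    (hconj : ∀ d ∈ D, ∀ w ∈ W, d * w * d⁻¹ ∈ W) {d : G} (hd : d ∈ D) {v : V}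
    (hv : v ∈ fixedSub ρ W) : ρ d v ∈ fixedSub ρ W := by
  intro w hw
  have h1 : d⁻¹ * w * d⁻¹⁻¹ ∈ W := hconj d⁻¹ (inv_mem hd) w hw
  rw [inv_inv] at h1
  have h2 := hv _ h1
  have h3 : ρ w (ρ d v) = ρ d (ρ (d⁻¹ * w * d) v) := by
    rw [← Module.End.mul_apply, ← Module.End.mul_apply, ← map_mul, ← map_mul]
    congr 2
    group
  rw [h3, h2]

/-- **A group acting through elements of `p`-power order on a nonzero finite `k`-space of
characteristic `p` has a nonzero fixed vector.** -/
theorem fixedSub_ne_bot [Nontrivial V] (ρ : G →* Module.End k V) (W : Subgroup G)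
    (hW : ∀ w ∈ W, ∃ a : ℕ, ρ w ^ p ^ a = 1) : fixedSub ρ W ≠ ⊥ := by
  classical
  haveI : Finite V := Module.finite_of_finite k
  -- the image of `W` in the units of `End V`
  let ρu : G →* (Module.End k V)ˣ := ρ.toHomUnits
  have hρu : ∀ g : G, ((ρu g : (Module.End k V)ˣ) : Module.End k V) = ρ g := fun g => rfl
  let H : Subgroup (Module.End k V)ˣ := W.map ρu
  have hH : IsPGroup p ↥H := by
    rintro ⟨h, w, hw, rfl⟩
    obtain ⟨a, ha⟩ := hW w hw
    refine ⟨a, ?_⟩
    apply Subtype.ext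
    apply Units.ext
    rw [SubmonoidClass.coe_pow, Units.val_pow_eq_pow_val, hρu, ha]
    rfl
  -- `p` divides the cardinality of `V`
  have hpV : p ∣ Nat.card V := by
    have h1 : p ∣ Nat.card k := by
      haveI : Fintype k := Fintype.ofFinite k
      obtain ⟨n, hn⟩ := FiniteField.card k p
      rw [Nat.card_eq_fintype_card, hn.2]
      exact dvd_pow_self p n.ne_zero
    have h2 : Nat.card V = Nat.card k ^ Module.finrank k V := Module.natCard_eq_pow_finrank
    rw [h2]
    exact h1.trans (dvd_pow_self _ (Module.finrank_pos (R := k) (M := V)).ne')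
  have h0 : (0 : V) ∈ MulAction.fixedPoints ↥H V := by
    intro h
    show ((h : (Module.End k V)ˣ) : Module.End k V) 0 = 0
    exact map_zero _
  obtain ⟨b, hb, hb0⟩ := hH.exists_fixed_point_of_prime_dvd_card_of_fixed_point V hpV h0
  intro hbot
  apply hb0
  have hbF : b ∈ fixedSub ρ W := by
    intro w hw
    have := hb ⟨ρu w, w, hw, rfl⟩
    exact this
  rw [hbot, Submodule.mem_bot] at hbF
  exact hbF.symm

end Fixed

section Shape

variable {p : ℕ} [Fact p.Prime] [CharP k p] [Finite k]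

/-- an endomorphism of finite order prime to `p` whose characteristic polynomial is `(X - α)^2`
is the scalar `α`. -/
theorem eq_smul_one_of_pow_eq_one [Module.Finite k V] {t : Module.End k V} {e : ℕ}
    (hep : ¬ p ∣ e) (hte : t ^ e = 1) {α : k}
    (hchar : LinearMap.charpoly t = (X - C α) * (X - C α)) : t = α • (1 : Module.End k V) := by
  have hsep : (X ^ e - C (1 : k)).Separable := by
    apply separable_X_pow_sub_C
    · intro h0
      exact hep ((CharP.cast_eq_zero_iff k p e).mp h0)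
    · exact one_ne_zero
  have hann : aeval t (X ^ e - C (1 : k)) = 0 := by
    rw [map_sub, map_pow, aeval_X, aeval_C, hte, map_one, sub_self]
  have hsq : Squarefree (minpoly k t) := hsep.squarefree.squarefree_of_dvd (minpoly.dvd k t hann)
  have hdvd : minpoly k t ∣ (X - C α) * (X - C α) := hchar ▸ LinearMap.minpoly_dvd_charpoly t
  -- `minpoly ∣ X - α`
  have hirr : Irreducible (X - C α : k[X]) := irreducible_X_sub_C α
  have h1 : minpoly k t ∣ X - C α := by
    have hpr : Prime (X - C α : k[X]) := hirr.prime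
    by_cases hd : (X - C α) ∣ minpoly k t
    · obtain ⟨c, hc⟩ := hd
      -- `(X - α) * c ∣ (X - α)^2` so `c ∣ X - α`; squarefree forces `c` to be a unit
      rw [hc] at hdvd hsq
      have hc1 : c ∣ X - C α := (mul_dvd_mul_iff_left hirr.ne_zero).mp hdvd
      rcases (hirr.dvd_iff.mp hc1) with hu | hassoc
      · rw [hc]
        exact (associated_mul_unit_left _ c hu).dvd
      · exfalso
        have : (X - C α) * (X - C α) ∣ (X - C α) * c :=
          mul_dvd_mul_left _ hassoc.symm.dvd'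
        exact hirr.not_isUnit (hsq _ this)
    · have hcop : IsCoprime (X - C α) (minpoly k t) := (hirr.coprime_iff_not_dvd).mpr hd
      have h2 : minpoly k t ∣ X - C α := hcop.symm.dvd_of_dvd_mul_left hdvd
      exact h2
  have h3 : aeval t (X - C α : k[X]) = 0 := by
    obtain ⟨c, hc⟩ := h1
    rw [hc, map_mul, minpoly.aeval, zero_mul]
  rw [map_sub, aeval_X, aeval_C, sub_eq_zero] at h3
  rw [h3, Algebra.algebraMap_eq_smul_one]

omit [Fact p.Prime] [CharP k p] [Finite k] in
/-- a submodule stable under `ρ(τ)` and `ρ(φ)` is stable under `D` once wild inertia acts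
trivially. -/
theorem TameData.stable_of_gen {ρ : G →* Module.End k V} {D I : Subgroup G}
    (T : TameData p ρ D I) (hW : ∀ w ∈ T.W, ρ w = 1) (ℓ : Submodule k V)
    (hτ : ∀ v ∈ ℓ, ρ T.τ v ∈ ℓ) (hφ : ∀ v ∈ ℓ, ρ T.φ v ∈ ℓ) :
    ∀ d ∈ D, ∀ v ∈ ℓ, ρ d v ∈ ℓ := by
  have hpow : ∀ (f : Module.End k V), (∀ v ∈ ℓ, f v ∈ ℓ) → ∀ (j : ℕ), ∀ v ∈ ℓ, (f ^ j) v ∈ ℓ := by
    intro f hf j
    induction j with
    | zero => intro v hv; simpa using hv
    | succ j ih =>
      intro v hv
      rw [pow_succ, Module.End.mul_apply]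
      exact ih _ (hf v hv)
  intro d hd v hv
  obtain ⟨j, s, hs, hds⟩ := T.frob_gen d hd
  obtain ⟨j', w, hw, hsw⟩ := T.gen s hs
  rw [hds, hsw, hW w hw, mul_one, Module.End.mul_apply]
  exact hpow _ hφ j _ (hpow _ hτ j' v hv)

/-- **The shape of a `2`-dimensional representation with tame data whose characteristic
polynomials split.** -/
theorem shape [Module.Finite k V] {ρ : G →* Module.End k V} {D I : Subgroup G}
    (T : TameData p ρ D I) (h2 : Module.finrank k V = 2)
    (hsplit : ∀ d ∈ D, ∃ α β : k, LinearMap.charpoly (ρ d) = (X - C α) * (X - C β)) :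
    (∃ ℓ : Submodule k V, Module.finrank k ℓ = 1 ∧ ∀ d ∈ D, ∀ v ∈ ℓ, ρ d v ∈ ℓ) ∨
    ((∀ w ∈ T.W, ρ w = 1) ∧ ∃ (b : Module.Basis (Fin 2) k V) (ζ : k), ζ ^ p ≠ ζ ∧
      ζ ^ (p ^ 2) = ζ ∧ ρ T.τ (b 0) = ζ • b 0 ∧ ρ T.τ (b 1) = ζ ^ p • b 1 ∧
      (∃ c : k, ρ T.φ (b 0) = c • b 1) ∧ (∃ c : k, ρ T.φ (b 1) = c • b 0)) := by
  classical
  have hp : p.Prime := Fact.out
  haveI : Nontrivial V := Module.nontrivial_of_finrank_pos (R := k) (by rw [h2]; norm_num)
  have hF0 : fixedSub ρ T.W ≠ ⊥ := fixedSub_ne_bot (p := p) ρ T.W T.wild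
  have hFstab : ∀ d ∈ D, ∀ v ∈ fixedSub ρ T.W, ρ d v ∈ fixedSub ρ T.W :=
    fun d hd v hv => fixedSub_stable T.conj_W hd hv
  have hle : Module.finrank k (fixedSub ρ T.W) ≤ 2 := h2 ▸ Submodule.finrank_le _
  have hne0 : Module.finrank k (fixedSub ρ T.W) ≠ 0 := fun h0 => hF0 (Submodule.finrank_eq_zero.mp h0)
  by_cases h1 : Module.finrank k (fixedSub ρ T.W) = 1
  · exact Or.inl ⟨_, h1, hFstab⟩
  have hFtop : fixedSub ρ T.W = ⊤ := by
    apply Submodule.eq_top_of_finrank_eq
    rw [h2]
    omega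
  have hW : ∀ w ∈ T.W, ρ w = 1 := by
    intro w hw
    ext v
    have hv : v ∈ fixedSub ρ T.W := hFtop ▸ Submodule.mem_top
    exact hv w hw
  -- the tame generator
  set t := ρ T.τ with ht
  have hte : t ^ T.e = 1 := by
    obtain ⟨w, hw, h⟩ := T.τ_pow
    rw [h, hW w hw]
  have hrel : ρ T.φ * t = t ^ p * ρ T.φ := by
    obtain ⟨w, hw, h⟩ := T.rel
    rw [h, hW w hw, mul_one]
  obtain ⟨α, β, hαβ⟩ := hsplit T.τ (T.I_le T.τ_mem)
  -- an eigenvector of `ρ φ`
  have hφeig : ∃ (c : k) (v : V), v ≠ 0 ∧ ρ T.φ v = c • v := by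
    obtain ⟨α', β', h⟩ := hsplit T.φ T.φ_mem
    have hroot : (LinearMap.charpoly (ρ T.φ)).IsRoot α' := by
      rw [h, IsRoot, eval_mul, eval_sub, eval_X, eval_C, sub_self, zero_mul]
    obtain ⟨v, hv⟩ := ((Module.End.hasEigenvalue_iff_isRoot_charpoly _ _).mpr hroot).exists_hasEigenvector
    exact ⟨α', v, hv.2, Module.End.mem_eigenspace_iff.mp hv.1⟩
  by_cases hab : α = β
  · -- `t` is a scalar
    left
    subst hab
    have hts : t = α • (1 : Module.End k V) :=
      eq_smul_one_of_pow_eq_one (p := p) T.e_cop hte hαβ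
    obtain ⟨c, v, hv0, hv⟩ := hφeig
    refine ⟨k ∙ v, finrank_span_singleton hv0, T.stable_of_gen hW _ ?_ ?_⟩
    · intro x hx
      rw [← ht, hts, LinearMap.smul_apply, Module.End.one_apply]
      exact Submodule.smul_mem _ _ hx
    · intro x hx
      obtain ⟨a, rfl⟩ := Submodule.mem_span_singleton.mp hx
      rw [map_smul, hv]
      exact Submodule.smul_mem _ _ (Submodule.smul_mem _ _ (Submodule.mem_span_singleton_self v))
  · -- two distinct eigenvalues
    have hrα : (LinearMap.charpoly t).IsRoot α := by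
      rw [hαβ, IsRoot, eval_mul, eval_sub, eval_X, eval_C, sub_self, zero_mul]
    have hrβ : (LinearMap.charpoly t).IsRoot β := by
      rw [hαβ, IsRoot, eval_mul, eval_sub, eval_X, eval_C, eval_sub, eval_X, eval_C, sub_self,
        mul_zero]
    obtain ⟨v₁, hv₁⟩ := ((Module.End.hasEigenvalue_iff_isRoot_charpoly _ _).mpr hrα).exists_hasEigenvector
    obtain ⟨v₂, hv₂⟩ := ((Module.End.hasEigenvalue_iff_isRoot_charpoly _ _).mpr hrβ).exists_hasEigenvector
    have htv₁ : t v₁ = α • v₁ := Module.End.mem_eigenspace_iff.mp hv₁.1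
    have htv₂ : t v₂ = β • v₂ := Module.End.mem_eigenspace_iff.mp hv₂.1
    have hli : LinearIndependent k ![v₁, v₂] := by
      apply Module.End.eigenvectors_linearIndependent' t ![α, β]
      · intro i j hij
        fin_cases i <;> fin_cases j <;> simp_all
      · intro i
        fin_cases i
        · exact hv₁
        · exact hv₂
    let b : Module.Basis (Fin 2) k V :=
      basisOfLinearIndependentOfCardEqFinrank hli (by rw [h2, Fintype.card_fin])
    have hb0 : b 0 = v₁ := by simp [b]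
    have hb1 : b 1 = v₂ := by simp [b]
    have hpair := LinearIndependent.pair_iff.mp hli
    have hexp : ∀ x : V, x = b.repr x 0 • v₁ + b.repr x 1 • v₂ := by
      intro x
      have := b.sum_repr x
      rw [Fin.sum_univ_two, hb0, hb1] at this
      exact this.symm
    -- powers of `t` on eigenvectors
    have htp₁ : (t ^ p) v₁ = α ^ p • v₁ := by
      have : ∀ n : ℕ, (t ^ n) v₁ = α ^ n • v₁ := by
        intro n
        induction n with
        | zero => simp
        | succ n ih => rw [pow_succ, Module.End.mul_apply, htv₁, map_smul, ih, smul_smul, pow_succ,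
            mul_comm]
      exact this p
    have htp₂ : (t ^ p) v₂ = β ^ p • v₂ := by
      have : ∀ n : ℕ, (t ^ n) v₂ = β ^ n • v₂ := by
        intro n
        induction n with
        | zero => simp
        | succ n ih => rw [pow_succ, Module.End.mul_apply, htv₂, map_smul, ih, smul_smul, pow_succ,
            mul_comm]
      exact this p
    have hfrob_inj : ∀ x y : k, x ^ p = y ^ p → x = y := fun x y h =>
      frobenius_inj k p (by simpa [frobenius_def] using h)
    have hαβp : α ^ p ≠ β ^ p := fun h => hab (hfrob_inj _ _ h)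
    -- the relation applied to an eigenvector with eigenvalue `γ`
    have hkey : ∀ (γ : k) (v : V), t v = γ • v →
        b.repr (ρ T.φ v) 0 * (α ^ p - γ) = 0 ∧ b.repr (ρ T.φ v) 1 * (β ^ p - γ) = 0 := by
      intro γ v hv
      have h1 : (t ^ p) (ρ T.φ v) = γ • ρ T.φ v := by
        rw [← Module.End.mul_apply, ← hrel, Module.End.mul_apply, hv, map_smul]
      have h2 := hexp (ρ T.φ v)
      set a₀ := b.repr (ρ T.φ v) 0
      set a₁ := b.repr (ρ T.φ v) 1
      rw [h2, map_add, map_smul, map_smul, htp₁, htp₂, smul_add, smul_smul, smul_smul, smul_smul,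
        smul_smul] at h1
      have h3 : (a₀ * (α ^ p - γ)) • v₁ + (a₁ * (β ^ p - γ)) • v₂ = 0 := by
        have : (a₀ * (α ^ p - γ)) • v₁ + (a₁ * (β ^ p - γ)) • v₂ =
            ((a₀ * α ^ p) • v₁ + (a₁ * β ^ p) • v₂) - ((γ * a₀) • v₁ + (γ * a₁) • v₂) := by
          rw [mul_sub, mul_sub, sub_smul, sub_smul, mul_comm a₀ γ, mul_comm a₁ γ]
          abel
        rw [this, h1, sub_self]
      exact hpair _ _ h3
    have hφinj : ∀ v : V, v ≠ 0 → ρ T.φ v ≠ 0 := by
      intro v hv h0
      apply hv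
      have : ρ T.φ⁻¹ (ρ T.φ v) = v := by
        rw [← Module.End.mul_apply, ← map_mul, inv_mul_cancel, map_one, Module.End.one_apply]
      rw [← this, h0, map_zero]
    obtain ⟨hA0, hA1⟩ := hkey α v₁ htv₁
    obtain ⟨hB0, hB1⟩ := hkey β v₂ htv₂
    by_cases hαp : α ^ p = α
    · -- the line of `v₁` is stable
      left
      have hβα : β ^ p - α ≠ 0 := by
        rw [← hαp]
        exact sub_ne_zero.mpr (Ne.symm hαβp)
      have ha1 : b.repr (ρ T.φ v₁) 1 = 0 := by
        rcases mul_eq_zero.mp hA1 with h | h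
        · exact h
        · exact absurd h hβα
      refine ⟨k ∙ v₁, finrank_span_singleton hv₁.2, T.stable_of_gen hW _ ?_ ?_⟩
      · intro x hx
        obtain ⟨a, rfl⟩ := Submodule.mem_span_singleton.mp hx
        rw [map_smul, ← ht, htv₁]
        exact Submodule.smul_mem _ _ (Submodule.smul_mem _ _ (Submodule.mem_span_singleton_self v₁))
      · intro x hx
        obtain ⟨a, rfl⟩ := Submodule.mem_span_singleton.mp hx
        rw [map_smul, hexp (ρ T.φ v₁), ha1, zero_smul, add_zero]
        exact Submodule.smul_mem _ _ (Submodule.smul_mem _ _ (Submodule.mem_span_singleton_self v₁))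
    · -- the supersingular shape
      right
      refine ⟨hW, b, α, hαp, ?_⟩
      have ha0 : b.repr (ρ T.φ v₁) 0 = 0 := by
        rcases mul_eq_zero.mp hA0 with h | h
        · exact h
        · exact absurd (sub_eq_zero.mp h) hαp
      have ha1 : b.repr (ρ T.φ v₁) 1 ≠ 0 := by
        intro h
        apply hφinj v₁ hv₁.2
        rw [hexp (ρ T.φ v₁), ha0, h, zero_smul, zero_smul, add_zero]
      have hβpα : β ^ p = α := by
        rcases mul_eq_zero.mp hA1 with h | h
        · exact absurd h ha1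
        · exact sub_eq_zero.mp h
      have hβpβ : β ^ p - β ≠ 0 := by
        rw [hβpα]
        exact sub_ne_zero.mpr hab
      have hc1 : b.repr (ρ T.φ v₂) 1 = 0 := by
        rcases mul_eq_zero.mp hB1 with h | h
        · exact h
        · exact absurd h hβpβ
      have hc0 : b.repr (ρ T.φ v₂) 0 ≠ 0 := by
        intro h
        apply hφinj v₂ hv₂.2
        rw [hexp (ρ T.φ v₂), hc1, h, zero_smul, zero_smul, add_zero]
      have hαpβ : α ^ p = β := by
        rcases mul_eq_zero.mp hB0 with h | h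
        · exact absurd h hc0
        · exact sub_eq_zero.mp h
      refine ⟨?_, ?_, ?_, ⟨b.repr (ρ T.φ v₁) 1, ?_⟩, ⟨b.repr (ρ T.φ v₂) 0, ?_⟩⟩
      · rw [pow_two, pow_mul, hαpβ, hβpα]
      · rw [hb0]; exact htv₁
      · rw [hb1, hαpβ]; exact htv₂
      · rw [hb0, hb1]
        conv_lhs => rw [hexp (ρ T.φ v₁), ha0, zero_smul, zero_add]
      · rw [hb0, hb1]
        conv_lhs => rw [hexp (ρ T.φ v₂), hc1, zero_smul, add_zero]

end Shape

end Fermat.Agent.TW.Shape
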