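import Mathlib
import Fermat.Agent.BR3.WildCyclo
import Fermat.Agent.S14.TransCore

/-!
# TW / Shape: the tame character of `(-p)^{1/(p-1)}` is the mod-`p` cyclotomic character

`P` a valuation subring of `ℚ̄` over `p`, `s ∈ I_P`, `ϖ ^ (p - 1) = -p`, `s μ = μ ^ a` on `μ_p`.
Then `s ϖ / ϖ ≡ a mod 𝔪_P` (`cyclo_tame`, requested in finding #1569).

Proof: `λ := μ₀ - 1` for a primitive `p`-th root of unity `μ₀`; `v(λ)^(p-1) = v(p) = v(ϖ)^(p-1)`, so
`w := λ / ϖ` is a `P`-unit and `s w ≡ w`; hence `s ϖ / ϖ ≡ s λ / λ = 1 + μ₀ + ⋯ + μ₀^(a-1) ≡ a`.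
-/

set_option autoImplicit false
set_option linter.style.haveILetI false
set_option linter.deprecated false

namespace Fermat.Agent.TW.Shape

local notation "Qb" => AlgebraicClosure ℚ
local notation "GQ" => (AlgebraicClosure ℚ ≃ₐ[ℚ] AlgebraicClosure ℚ)

open Fermat.Agent.BR3.WildCyclo Fermat.Agent.BR3.TameRoot

/-- In a linearly ordered commutative group with zero, `x ^ n = y ^ n` with `n > 0` forces
`x = y`. -/
theorem eq_of_pow_eq_pow' {Γ : Type*} [LinearOrderedCommGroupWithZero Γ] {x y : Γ} {n : ℕ}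
    (hn : 0 < n) (h : x ^ n = y ^ n) : x = y := by
  rcases lt_trichotomy x y with hlt | heq | hgt
  · exact absurd h (ne_of_lt (pow_lt_pow_left₀ hlt zero_le' hn.ne'))
  · exact heq
  · exact absurd h.symm (ne_of_lt (pow_lt_pow_left₀ hgt (zero_le') hn.ne'))

theorem cyclo_tame {p : ℕ} (hp : p.Prime) (P : ValuationSubring Qb) (hP : P.LiesOverPrime p)
    {ϖ : Qb} (hϖ : ϖ ^ (p - 1) = -(p : Qb)) {s : GQ} (hs : s ∈ P.inertiaSubgroupIn ℚ) {a : ℕ}
    (ha : ∀ μ : Qb, μ ^ p = 1 → s μ = μ ^ a) : P.valuation (s ϖ / ϖ - (a : Qb)) < 1 := by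
  -- a primitive `p`-th root of unity
  haveI : NeZero (p : Qb) := ⟨by exact_mod_cast hp.ne_zero⟩
  obtain ⟨μ₀, hμ₀⟩ : ∃ μ₀ : Qb, IsPrimitiveRoot μ₀ p :=
    HasEnoughRootsOfUnity.exists_primitiveRoot Qb p
  obtain ⟨hsD, hsI⟩ := (Fermat.Agent.S14.mem_inertiaSubgroupIn_iff P s).mp hs
  set v := P.valuation with hv
  have hp1 : 0 < p - 1 := Nat.sub_pos_of_lt hp.one_lt
  have hvp_lt : v (p : Qb) < 1 := valuation_q_lt_one hP
  have hvp_pos : 0 < v (p : Qb) := valuation_q_pos (B := P) hp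
  -- valuations of `λ` and `ϖ`
  have hlam : v (μ₀ - 1) ^ (p - 1) = v (p : Qb) := valuation_sub_one_pow hp hμ₀ P
  have hϖv : v ϖ ^ (p - 1) = v (p : Qb) := by
    rw [← map_pow, hϖ, Valuation.map_neg]
  have hlv : v (μ₀ - 1) = v ϖ := eq_of_pow_eq_pow' hp1 (hlam.trans hϖv.symm)
  have hϖ0 : ϖ ≠ 0 := by
    intro h0
    rw [h0, map_zero, zero_pow hp1.ne'] at hϖv
    exact hvp_pos.ne hϖv
  have hl0 : μ₀ - 1 ≠ 0 := by
    intro h0
    rw [h0, map_zero, zero_pow hp1.ne'] at hlam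
    exact hvp_pos.ne hlam
  have hllt : v (μ₀ - 1) < 1 := by
    by_contra hge
    rw [not_lt] at hge
    have : (1 : _) ≤ v (μ₀ - 1) ^ (p - 1) := one_le_pow₀ hge
    rw [hlam] at this
    exact absurd hvp_lt (not_lt.mpr this)
  -- the unit `w = λ / ϖ`
  set w : Qb := (μ₀ - 1) / ϖ with hw
  have hvw : v w = 1 := by
    rw [hw, map_div₀, hlv, div_self]
    exact (Valuation.ne_zero_iff _).mpr hϖ0
  have hwP : w ∈ P := (P.valuation_le_one_iff w).mp hvw.le
  have hw0 : w ≠ 0 := by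
    intro h0; rw [h0, map_zero] at hvw; exact zero_ne_one hvw
  have hsw : v (s w - w) < 1 := hsI w hwP
  -- `v (s w) = 1`
  have hvsw : v (s w) = 1 := by
    have h1 : v (s w) ≤ 1 := by
      have : s w = (s w - w) + w := by ring
      rw [this]
      exact le_trans (Valuation.map_add _ _ _) (max_le hsw.le hvw.le)
    rcases lt_or_eq_of_le h1 with hlt | heq
    · exfalso
      have : v w < 1 := by
        have h2 : w = s w - (s w - w) := by ring
        rw [h2]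
        exact lt_of_le_of_lt (Valuation.map_sub _ _ _) (max_lt hlt hsw)
      exact this.ne hvw
    · exact heq
  have hsw0 : s w ≠ 0 := by
    intro h0; rw [h0, map_zero] at hvsw; exact zero_ne_one hvsw
  -- `s λ / λ = ∑_{i<a} μ₀^i`
  have hsμ : s μ₀ = μ₀ ^ a := ha μ₀ hμ₀.pow_eq_one
  have hgeom : (μ₀ - 1) * (∑ i ∈ Finset.range a, μ₀ ^ i) = μ₀ ^ a - 1 := by
    rw [mul_comm]; exact geom_sum_mul μ₀ a
  have hsl : s (μ₀ - 1) = (μ₀ - 1) * ∑ i ∈ Finset.range a, μ₀ ^ i := by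
    rw [map_sub, map_one, hsμ, hgeom]
  -- `μ₀^i ≡ 1`
  have hμP : μ₀ ∈ P := by
    have : μ₀ = (μ₀ - 1) + 1 := by ring
    rw [this]
    exact P.add_mem _ _ ((P.valuation_le_one_iff _).mp hllt.le) P.one_mem
  have hpow : ∀ i : ℕ, v (μ₀ ^ i - 1) < 1 := by
    intro i
    induction i with
    | zero => simp
    | succ i ih =>
      have : μ₀ ^ (i + 1) - 1 = μ₀ ^ i * (μ₀ - 1) + (μ₀ ^ i - 1) := by ring
      rw [this]
      refine lt_of_le_of_lt (Valuation.map_add _ _ _) (max_lt ?_ ih)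
      rw [map_mul]
      have h1 : v (μ₀ ^ i) ≤ 1 := (P.valuation_le_one_iff _).mpr (P.pow_mem hμP i)
      calc v (μ₀ ^ i) * v (μ₀ - 1) ≤ 1 * v (μ₀ - 1) := mul_le_mul_left (h1) _
        _ = v (μ₀ - 1) := one_mul _
        _ < 1 := hllt
  have hsum' : ∀ n : ℕ, v (∑ i ∈ Finset.range n, (μ₀ ^ i - 1)) < 1 := by
    intro n
    induction n with
    | zero => simp
    | succ n ih =>
      rw [Finset.sum_range_succ]
      exact lt_of_le_of_lt (Valuation.map_add _ _ _) (max_lt ih (hpow n))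
  have hsum : v ((∑ i ∈ Finset.range a, μ₀ ^ i) - (a : Qb)) < 1 := by
    have h1 : (∑ i ∈ Finset.range a, μ₀ ^ i) - (a : Qb) = ∑ i ∈ Finset.range a, (μ₀ ^ i - 1) := by
      rw [Finset.sum_sub_distrib]; simp
    rw [h1]
    exact hsum' a
  -- assemble
  have hsϖ : s ϖ / ϖ = (∑ i ∈ Finset.range a, μ₀ ^ i) * (w / s w) := by
    have h1 : (μ₀ - 1) = w * ϖ := by rw [hw]; field_simp
    have h2 : s (μ₀ - 1) = s w * s ϖ := by rw [h1, map_mul]
    rw [hsl, h1] at h2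
    have h3 : s ϖ = w * ϖ * (∑ i ∈ Finset.range a, μ₀ ^ i) / s w := by
      rw [eq_div_iff hsw0, h2]; ring
    rw [h3]
    field_simp
  have hratio : v (w / s w - 1) < 1 := by
    have : w / s w - 1 = -(s w - w) / s w := by field_simp; ring
    rw [this, map_div₀, Valuation.map_neg, hvsw, div_one]
    exact hsw
  have hSP : v (∑ i ∈ Finset.range a, μ₀ ^ i) ≤ 1 :=
    (P.valuation_le_one_iff _).mpr (P.sum_mem fun i _ => P.pow_mem hμP i)
  have hfinal : s ϖ / ϖ - (a : Qb) =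
      (∑ i ∈ Finset.range a, μ₀ ^ i) * (w / s w - 1) +
        ((∑ i ∈ Finset.range a, μ₀ ^ i) - (a : Qb)) := by
    rw [hsϖ]; ring
  rw [hfinal]
  refine lt_of_le_of_lt (Valuation.map_add _ _ _) (max_lt ?_ hsum)
  rw [map_mul]
  calc v (∑ i ∈ Finset.range a, μ₀ ^ i) * v (w / s w - 1) ≤ 1 * v (w / s w - 1) :=
        mul_le_mul_left hSP _
    _ = v (w / s w - 1) := one_mul _
    _ < 1 := hratio

end Fermat.Agent.TW.Shape
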