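import Fermat.Agent.TW.Shape.Core
import Fermat.Agent.BR3.TameStructGQ
import Fermat.Agent.S14.TransCore
import Fermat.Agent.Cheb.FrobDict

/-!
# PROGRAM G (S56), node F4: tame data of the decomposition group at `p` for a residual
representation (bridge from the Prelude vocabulary to `Shape/Core.lean`)

`P` a valuation subring of `ℚ̄` over `p`, `ρ : G_ℚ →* End_k V` trivial on the absolute Galois
group of a finite extension `L₀ / ℚ`.  `exists_tameData` produces a `TameData p ρ D_P I_P`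
(`D_P = P.decompositionSubgroup ℚ`, `I_P = P.inertiaSubgroupIn ℚ`):

* wild inertia `W = ker θ`, `θ` the tame character of a uniformizer of the normal closure `L`
  (`BR2/TameChar`), acting through a `p`-group on `L` (`BR3/TameStructGQ`);
* `D_P = ⟨φ⟩ · I_P` modulo `Gal(ℚ̄/L)`: the residue field of `P ∩ L` is finite, every
  automorphism of a finite field is a power of the Frobenius, and inertia lifts from `L` to `ℚ̄`
  (`S14/TransCore.exists_mem_inertiaSubgroupIn_restrictNormalHom_eq`).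
-/

set_option autoImplicit false
set_option linter.style.haveILetI false
set_option linter.unusedSectionVars false

namespace Fermat.Agent.TW.Shape

open IsLocalRing Fermat.Agent.BR2.TameChar Fermat.Agent.BR2.TameCore
open scoped Pointwise

local notation "Qb" => AlgebraicClosure ℚ
local notation "GQ" => (AlgebraicClosure ℚ ≃ₐ[ℚ] AlgebraicClosure ℚ)

section ResidueFinite

variable {E : Type*} [Field E] [NumberField E] (A : ValuationSubring E)

/-- **The residue field of a valuation subring of a number field over a prime `p` is finite.** -/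
theorem finite_residueField_of_numberField {p : ℕ} (hp : p.Prime)
    (hA : A.valuation (p : E) < 1) : Finite (ResidueField A) := by
  have halg : ∀ x : E, IsAlgebraic ℤ x := fun x =>
    (IsFractionRing.isAlgebraic_iff ℤ ℚ E).mpr (Algebra.IsAlgebraic.isAlgebraic x)
  let f : integralClosure ℤ E →+* ResidueField A :=
    (residue A).comp (Fermat.Agent.S54.FrobExists.inclInt A)
  have hf : Function.Surjective f := by
    intro y
    obtain ⟨x, rfl⟩ := residue_surjective y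
    obtain ⟨c, hc⟩ := Fermat.Agent.S54.FrobExists.exists_integral_sub_lt halg A hp hA x.2
    refine ⟨c, ?_⟩
    show residue A (Fermat.Agent.S54.FrobExists.inclInt A c) = residue A x
    rw [← sub_eq_zero, ← map_sub, residue_eq_zero_iff, A.valuation_lt_one_iff]
    have h1 : ((Fermat.Agent.S54.FrobExists.inclInt A c - x : A) : E) = -((x : E) - (c : E)) := by
      simp
    rw [h1, Valuation.map_neg]
    exact hc
  haveI : Module.Finite ℤ (integralClosure ℤ E) :=
    inferInstanceAs (Module.Finite ℤ (NumberField.RingOfIntegers E))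
  haveI : Module.Finite ℤ (ResidueField A) :=
    Module.Finite.of_surjective f.toIntAlgHom.toLinearMap hf
  apply Module.finite_of_fg_torsion
  intro y
  have hp0 : ((p : ℤ)) ∈ nonZeroDivisors ℤ :=
    mem_nonZeroDivisors_of_ne_zero (by exact_mod_cast hp.ne_zero)
  refine ⟨⟨(p : ℤ), hp0⟩, ?_⟩
  show (p : ℤ) • y = 0
  haveI : CharP (ResidueField A) p := Fermat.Agent.Val.charP_residueField A hp hA
  rw [zsmul_eq_mul, Int.cast_natCast, CharP.cast_eq_zero, zero_mul]

end ResidueFinite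

section FrobPow

variable {F : Type*} [Field F] [Finite F] {p : ℕ} [Fact p.Prime] [CharP F p]

/-- **Every automorphism of a finite field of characteristic `p` is a power of the Frobenius.** -/
theorem exists_pow_eq_of_ringAut (α : F ≃+* F) : ∃ j : ℕ, ∀ x : F, α x = x ^ p ^ j := by
  letI : Algebra (ZMod p) F := ZMod.algebra F p
  let α' : F ≃ₐ[ZMod p] F := AlgEquiv.ofRingEquiv (f := α) (fun c => by
    have h : (α : F →+* F).comp (algebraMap (ZMod p) F) = algebraMap (ZMod p) F :=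
      Subsingleton.elim _ _
    exact congrFun (congrArg DFunLike.coe h) c)
  obtain ⟨n, hn⟩ := (FiniteField.bijective_frobeniusAlgEquivOfAlgebraic_pow (ZMod p) F).2 α'
  refine ⟨n, fun x => ?_⟩
  have h1 : α x = α' x := rfl
  have h2 : α' x = (FiniteField.frobeniusAlgEquivOfAlgebraic (ZMod p) F ^ (n : ℕ)) x := by
    rw [← hn]
  rw [h1, h2, AlgEquiv.coe_pow, FiniteField.coe_frobeniusAlgEquivOfAlgebraic_iterate, ZMod.card]

end FrobPow

section Generic

variable {K Ω : Type*} [Field K] [Field Ω] [Algebra K Ω] (A : ValuationSubring Ω)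

/-- elementwise criterion for the decomposition group -/
theorem mem_decompositionSubgroup_of_forall_mem_iff (σ : Ω ≃ₐ[K] Ω)
    (hσ : ∀ y : Ω, σ y ∈ A ↔ y ∈ A) : σ ∈ A.decompositionSubgroup K := by
  show σ ∈ MulAction.stabilizer (Ω ≃ₐ[K] Ω) A
  rw [MulAction.mem_stabilizer_iff]
  ext x
  rw [ValuationSubring.mem_pointwise_smul_iff_inv_smul_mem]
  have h1 : σ⁻¹ • x = σ.symm x := rfl
  rw [h1, ← hσ (σ.symm x), AlgEquiv.apply_symm_apply]

variable [Algebra.IsAlgebraic K Ω]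

/-- **The kernel of the tame character is normalised by the decomposition group.** -/
theorem tameChar_conj_eq_one {π : Ω} (hπ : π ≠ 0) {d g : Ω ≃ₐ[K] Ω}
    (hdD : d ∈ A.decompositionSubgroup K) (hg : g ∈ A.inertiaSubgroupIn K)
    (hθ : tameChar A π hπ ⟨g, hg⟩ = 1) :
    tameChar A π hπ ⟨d * g * d⁻¹, conj_mem_inertia hdD hg⟩ = 1 := by
  rw [tameChar_eq_one_iff] at hθ ⊢
  have hdi : d⁻¹ ∈ A.decompositionSubgroup K := inv_mem hdD
  have hvπ : 0 < A.valuation π := zero_lt_iff.mpr ((map_ne_zero _).mpr hπ)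
  set π' := d⁻¹ π with hπ'
  have hvπ' : A.valuation π' = A.valuation π := val_apply hdi π
  set u := π' / π with hu
  have hvu : A.valuation u = 1 := by
    rw [hu, map_div₀, hvπ', div_self hvπ.ne']
  have huA : u ∈ A := (A.valuation_le_one_iff u).mp hvu.le
  have hπ'u : π' = u * π := by rw [hu, div_mul_cancel₀ _ hπ]
  have hgI := (mem_inertia_iff A g).mp hg
  have e1 : (d * g * d⁻¹) π - π = d (g π' - π') := by
    rw [map_sub]
    have : d π' = π := by
      show (d * d⁻¹) π = π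
      rw [mul_inv_cancel]; rfl
    rw [this]
    rfl
  show A.valuation ((d * g * d⁻¹) π - π) < A.valuation π
  rw [e1, val_apply hdD]
  have e2 : g π' - π' = g u * (g π - π) + (g u - u) * π := by
    rw [hπ'u, map_mul]; ring
  rw [e2]
  apply Valuation.map_add_lt
  · rw [map_mul, val_apply hgI.1, hvu, one_mul]
    exact hθ
  · rw [map_mul]
    calc A.valuation (g u - u) * A.valuation π < 1 * A.valuation π :=
          mul_lt_mul_of_pos_right (hgI.2 u huA) hvπ
      _ = A.valuation π := one_mul _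

end Generic

section Main

variable {k : Type*} [Field k] {V : Type*} [AddCommGroup V] [Module k V]

/-- **Tame data of the decomposition group at `p`** for a representation of `G_ℚ` trivial on the
absolute Galois group of a number field, with a prescribed Frobenius element, and with the
arithmetic refinements: wild inertia acts on `L₀` through a `p`-group, `I_P = ⟨τ⟩ W` as groups,
and `D_P = ⟨φ⟩ I_P` on `L₀`. -/
theorem exists_tameData_of_frob {p : ℕ} (hp : p.Prime) (P : ValuationSubring Qb)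
    (hP : P.LiesOverPrime p)
    (ρ : GQ →* Module.End k V) (L₀ : IntermediateField ℚ Qb) (hL₀ : FiniteDimensional ℚ L₀)
    (hfix₀ : ∀ g : GQ, (∀ a ∈ L₀, g a = a) → ρ g = 1) (φ : GQ) (hφ : P.IsFrobeniusAt φ p) :
    ∃ T : TameData p ρ (P.decompositionSubgroup ℚ) (P.inertiaSubgroupIn ℚ), T.φ = φ ∧
      (∀ w ∈ T.W, ∃ n : ℕ, ∀ a ∈ L₀, (w ^ p ^ n) a = a) ∧
      (∀ s ∈ P.inertiaSubgroupIn ℚ, ∃ j : ℕ, ∃ w ∈ T.W, s = T.τ ^ j * w) ∧
      (∀ d ∈ P.decompositionSubgroup ℚ, ∃ j : ℕ, ∃ s ∈ P.inertiaSubgroupIn ℚ,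
        ρ d = ρ φ ^ j * ρ s ∧ ∀ a ∈ L₀, d a = (φ ^ j) (s a)) := by
  classical
  haveI := Fermat.Agent.BR2.TameRho.isAlgebraic_Qbar
  haveI := Fermat.Agent.BR2.TameRho.normal_Qbar
  haveI := hL₀
  haveI : Fact p.Prime := ⟨hp⟩
  haveI : CharP (ResidueField P) p := Fermat.Agent.Val.charP_residueField_of_liesOverPrime P hP
  have hPval : P.valuation (p : Qb) < 1 := (P.mem_nonunits_iff).mp hP
  obtain ⟨L, hL₀L, hLnormal, hLfin⟩ : ∃ L : IntermediateField ℚ Qb, L₀ ≤ L ∧ Normal ℚ L ∧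
      FiniteDimensional ℚ L :=
    ⟨IntermediateField.normalClosure ℚ L₀ Qb, IntermediateField.le_normalClosure L₀,
      normalClosure.normal ℚ L₀ Qb, normalClosure.is_finiteDimensional ℚ L₀ Qb⟩
  haveI := hLnormal
  haveI := hLfin
  have hfix : ∀ g : GQ, (∀ a ∈ L, g a = a) → ρ g = 1 :=
    fun g hg => hfix₀ g fun a ha => hg a (hL₀L ha)
  obtain ⟨π, hd⟩ := Fermat.Agent.BR2.TameDisc.exists_discreteOn P hp hP L
  have hπ0 : π ≠ 0 := hd.2.1
  have hπL : π ∈ L := hd.1
  have hφD : φ ∈ P.decompositionSubgroup ℚ := hφ.mem_decompositionSubgroup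
  set θ : ↥(P.inertiaSubgroupIn ℚ) →* (ResidueField P)ˣ := tameChar P π hπ0 with hθ
  have hθ_congr : ∀ g h : ↥(P.inertiaSubgroupIn ℚ), (g : GQ) π = (h : GQ) π → θ g = θ h := by
    intro g h e
    apply Units.ext
    rw [hθ, coe_tameChar, coe_tameChar]
    congr 1
    apply Subtype.ext
    show (g : GQ) π / π = (h : GQ) π / π
    rw [e]
  -- restriction to `L`
  let r : GQ →* (L ≃ₐ[ℚ] L) := AlgEquiv.restrictNormalHom L
  have hr_apply : ∀ (g : GQ) (a : Qb) (ha : a ∈ L), ((r g ⟨a, ha⟩ : L) : Qb) = g a := by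
    intro g a ha
    exact AlgEquiv.restrictNormal_commutes g L ⟨a, ha⟩
  have hr : ∀ g h : GQ, r g = r h → ∀ a ∈ L, g a = h a := by
    intro g h e a ha
    rw [← hr_apply g a ha, ← hr_apply h a ha, e]
  have hfac : ∀ g h : GQ, r g = r h → ρ g = ρ h := by
    intro g h e
    have h1 : ∀ a ∈ L, (h⁻¹ * g) a = a := by
      intro a ha
      show h⁻¹ (g a) = a
      rw [hr g h e a ha]
      exact h.symm_apply_apply a
    have h2 := hfix (h⁻¹ * g) h1
    have h3 : g = h * (h⁻¹ * g) := by group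
    rw [h3, map_mul, h2, mul_one]
  -- the image of `θ` is finite, hence cyclic
  have hfin : Finite ↥θ.range := by
    let f : ↥θ.range → (L ≃ₐ[ℚ] L) := fun y => r ((Classical.choose y.2 :
      ↥(P.inertiaSubgroupIn ℚ)) : GQ)
    refine Finite.of_injective f ?_
    intro y y' hyy'
    have h1 := Classical.choose_spec y.2
    have h2 := Classical.choose_spec y'.2
    apply Subtype.ext
    rw [← h1, ← h2]
    exact hθ_congr _ _ (hr _ _ hyy' π hπL)
  haveI : IsCyclic ↥θ.range := inferInstance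
  obtain ⟨⟨y₀, hy₀⟩, hgen⟩ := IsCyclic.exists_generator (α := ↥θ.range)
  obtain ⟨τ₀, hτ₀⟩ := hy₀
  have hpowers : ∀ s : ↥(P.inertiaSubgroupIn ℚ), ∃ j : ℕ, θ τ₀ ^ j = θ s := by
    intro s
    have h1 := hgen ⟨θ s, ⟨s, rfl⟩⟩
    rw [← mem_powers_iff_mem_zpowers] at h1
    obtain ⟨j, hj⟩ := h1
    refine ⟨j, ?_⟩
    have h2 := congrArg (fun z : ↥θ.range => (z : (ResidueField P)ˣ)) hj
    simp only [SubmonoidClass.coe_pow] at h2
    rw [hτ₀]
    exact h2
  -- wild inertia
  let Pw : Subgroup GQ := θ.ker.map (P.inertiaSubgroupIn ℚ).subtype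
  have hPw : ∀ g : GQ, g ∈ Pw ↔ ∃ hg : g ∈ P.inertiaSubgroupIn ℚ, θ ⟨g, hg⟩ = 1 := by
    intro g
    constructor
    · rintro ⟨x, hx, rfl⟩
      exact ⟨x.2, MonoidHom.mem_ker.mp hx⟩
    · rintro ⟨hg, h⟩
      exact ⟨⟨g, hg⟩, MonoidHom.mem_ker.mpr h, rfl⟩
  let τ : GQ := (τ₀ : GQ)
  have hτI : τ ∈ P.inertiaSubgroupIn ℚ := τ₀.2
  -- the order of the tame image
  set e := Nat.card ↥θ.range with he
  have he_pos : 0 < e := Nat.card_pos
  have he_cop : ¬ p ∣ e := by
    intro hdvd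
    haveI : Fintype ↥θ.range := Fintype.ofFinite _
    rw [he, Nat.card_eq_fintype_card] at hdvd
    obtain ⟨x, hx⟩ := exists_prime_orderOf_dvd_card p hdvd
    have h1 : x ^ p = 1 := by rw [← hx]; exact pow_orderOf_eq_one x
    have h2 : (x : (ResidueField P)ˣ) ^ p = 1 := by
      rw [← SubmonoidClass.coe_pow, h1]; rfl
    have h3 : (x : (ResidueField P)ˣ) = 1 :=
      Fermat.Agent.BR3.TameStructGQ.units_eq_one_of_pow_char p h2
    have h4 : x = 1 := Subtype.ext h3
    rw [h4, orderOf_one] at hx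
    exact hp.one_lt.ne hx
  have hτe : θ (τ₀ ^ e) = 1 := by
    rw [map_pow]
    have h1 : (⟨θ τ₀, ⟨τ₀, rfl⟩⟩ : ↥θ.range) ^ e = 1 := pow_card_eq_one'
    have h2 := congrArg (fun z : ↥θ.range => (z : (ResidueField P)ˣ)) h1
    simpa using h2
  -- the finite level
  let A : ValuationSubring L := P.comap (algebraMap L Qb)
  have hAval : A.valuation (p : L) < 1 := by
    rw [Fermat.Agent.S14.valuation_comap_lt_one_iff, map_natCast]
    exact hPval
  haveI : NumberField L := NumberField.mk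
  haveI : Finite (ResidueField A) := finite_residueField_of_numberField A hp hAval
  haveI : CharP (ResidueField A) p := Fermat.Agent.Val.charP_residueField A hp hAval
  have hmemA : ∀ y : L, y ∈ A ↔ (y : Qb) ∈ P := fun y => Iff.rfl
  have hrD : ∀ g : GQ, g ∈ P.decompositionSubgroup ℚ → r g ∈ A.decompositionSubgroup ℚ := by
    intro g hg
    apply mem_decompositionSubgroup_of_forall_mem_iff
    intro y
    rw [hmemA, hmemA, hr_apply g y.1 y.2]
    constructor
    · intro h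
      have := apply_mem (inv_mem hg) h
      have e : g⁻¹ (g (y : Qb)) = y := g.symm_apply_apply _
      rwa [e] at this
    · intro h
      exact apply_mem hg h
  -- Frobenius powers modulo the maximal ideal
  have hφpow : ∀ (j : ℕ) (y : Qb), y ∈ P → P.valuation ((φ ^ j) y - y ^ p ^ j) < 1 := by
    intro j
    induction j with
    | zero => intro y _; simp
    | succ j ih =>
      intro y hy
      have hF := ((isFrobeniusAt_iff P).mp hφ).2
      have h1 : (φ ^ (j + 1)) y = φ ((φ ^ j) y) := by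
        rw [pow_succ']; rfl
      have hyj : (φ ^ j) y ∈ P := apply_mem (pow_mem hφD j) hy
      have e : (φ ^ (j + 1)) y - y ^ p ^ (j + 1) =
          (φ ((φ ^ j) y) - ((φ ^ j) y) ^ p) + (((φ ^ j) y) ^ p - (y ^ p ^ j) ^ p) := by
        rw [h1, pow_succ, pow_mul]; ring
      rw [e]
      apply Valuation.map_add_lt _ (hF _ hyj)
      -- `a ^ p - b ^ p = c * (a - b)` with `c` integral
      have hgs := geom_sum₂_mul ((φ ^ j) y) (y ^ p ^ j) p
      have hbP : y ^ p ^ j ∈ P := P.pow_mem hy _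
      have hcP : (∑ i ∈ Finset.range p, ((φ ^ j) y) ^ i * (y ^ p ^ j) ^ (p - 1 - i)) ∈ P :=
        P.toSubring.sum_mem fun i _ => P.mul_mem _ _ (P.pow_mem hyj i) (P.pow_mem hbP _)
      rw [← hgs, map_mul]
      calc P.valuation (∑ i ∈ Finset.range p, ((φ ^ j) y) ^ i * (y ^ p ^ j) ^ (p - 1 - i)) *
            P.valuation ((φ ^ j) y - y ^ p ^ j)
          ≤ 1 * P.valuation ((φ ^ j) y - y ^ p ^ j) :=
            mul_le_mul_of_nonneg_right ((P.valuation_le_one_iff _).mpr hcP) zero_le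
        _ = P.valuation ((φ ^ j) y - y ^ p ^ j) := one_mul _
        _ < 1 := ih y hy
  -- `D_P = ⟨φ⟩ I_P` modulo `Gal(ℚ̄/L)`
  have hfrob_gen : ∀ d ∈ P.decompositionSubgroup ℚ, ∃ j : ℕ, ∃ s ∈ P.inertiaSubgroupIn ℚ,
      ρ d = ρ φ ^ j * ρ s ∧ ∀ a ∈ L, d a = (φ ^ j) (s a) := by
    intro d hdD
    let α : ResidueField A ≃+* ResidueField A :=
      MulSemiringAction.toRingAut (A.decompositionSubgroup ℚ) (ResidueField A) ⟨r d, hrD d hdD⟩
    obtain ⟨j, hj⟩ := exists_pow_eq_of_ringAut (p := p) α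
    refine ⟨j, ?_⟩
    set u : GQ := (φ ^ j)⁻¹ * d with hu
    have huD : u ∈ P.decompositionSubgroup ℚ := mul_mem (inv_mem (pow_mem hφD j)) hdD
    have hφjD : (φ ^ j)⁻¹ ∈ P.decompositionSubgroup ℚ := inv_mem (pow_mem hφD j)
    have hruI : r u ∈ A.inertiaSubgroupIn ℚ := by
      rw [Fermat.Agent.S14.mem_inertiaSubgroupIn_iff]
      refine ⟨hrD u huD, fun x hx => ?_⟩
      rw [Fermat.Agent.S14.valuation_comap_lt_one_iff, map_sub]
      show P.valuation (((r u x : L) : Qb) - (x : Qb)) < 1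
      rw [hr_apply u x.1 x.2]
      have hxP : (x : Qb) ∈ P := hx
      -- `d x ≡ x ^ (p ^ j)`
      have h1 : P.valuation (d (x : Qb) - (x : Qb) ^ p ^ j) < 1 := by
        have h2 := hj (residue A ⟨x, hx⟩)
        have h3 : α (residue A ⟨x, hx⟩) =
            (⟨r d, hrD d hdD⟩ : A.decompositionSubgroup ℚ) • residue A ⟨x, hx⟩ := rfl
        rw [h3, ← ResidueField.residue_smul, ← map_pow, ← sub_eq_zero, ← map_sub,
          residue_eq_zero_iff, A.valuation_lt_one_iff,
          Fermat.Agent.S14.valuation_comap_lt_one_iff] at h2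
        have h4 : algebraMap L Qb
            (((((⟨r d, hrD d hdD⟩ : A.decompositionSubgroup ℚ) • (⟨x, hx⟩ : A)) -
              (⟨x, hx⟩ : A) ^ p ^ j : A) : L)) = d (x : Qb) - (x : Qb) ^ p ^ j := by
          have h5 : (((((⟨r d, hrD d hdD⟩ : A.decompositionSubgroup ℚ) • (⟨x, hx⟩ : A)) -
              (⟨x, hx⟩ : A) ^ p ^ j : A) : L)) = (r d) x - x ^ p ^ j := rfl
          rw [h5, map_sub, map_pow]
          congr 1
          exact hr_apply d x.1 x.2
        rw [h4] at h2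
        exact h2
      have h5 : P.valuation (d (x : Qb) - (φ ^ j) (x : Qb)) < 1 := by
        have e : d (x : Qb) - (φ ^ j) (x : Qb) =
            (d (x : Qb) - (x : Qb) ^ p ^ j) - ((φ ^ j) (x : Qb) - (x : Qb) ^ p ^ j) := by ring
        rw [e]
        exact Valuation.map_sub_lt _ h1 (hφpow j _ hxP)
      have e2 : u (x : Qb) - (x : Qb) = (φ ^ j)⁻¹ (d (x : Qb) - (φ ^ j) (x : Qb)) := by
        rw [map_sub]
        have : (φ ^ j)⁻¹ ((φ ^ j) (x : Qb)) = x := (φ ^ j).symm_apply_apply _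
        rw [this]
        rfl
      rw [e2, val_apply hφjD]
      exact h5
    haveI : IsGalois ℚ Qb := Fermat.Agent.S54.FrobExists.isGalois_rat_algebraicClosure
    obtain ⟨s, hsI, hrs⟩ :=
      Fermat.Agent.S14.exists_mem_inertiaSubgroupIn_restrictNormalHom_eq L P hp hP (r u) hruI
    have h7 : d = φ ^ j * u := by rw [hu]; group
    refine ⟨s, hsI, ?_, ?_⟩
    · have h6 : ρ s = ρ u := hfac s u hrs
      rw [h6, ← map_pow, ← map_mul, ← h7]
    · intro a ha
      rw [hr s u hrs a ha, h7]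
      rfl
  refine ⟨{ W := Pw
            W_le := ?_
            I_le := ?_
            conj_W := ?_
            wild := ?_
            τ := τ
            τ_mem := hτI
            gen := ?_
            e := e
            e_pos := he_pos
            e_cop := he_cop
            τ_pow := ?_
            φ := φ
            φ_mem := hφD
            frob_gen := fun d hd => by
              obtain ⟨j, s, hs, h1, -⟩ := hfrob_gen d hd
              exact ⟨j, s, hs, h1⟩
            rel := ?_ }, rfl, ?_, ?_, ?_⟩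
  · -- W_le
    intro g hg
    exact ((hPw g).mp hg).1
  · -- I_le
    intro g hg
    exact Fermat.Agent.S05.mem_decompositionSubgroup_of_mem_inertiaSubgroupIn P hg
  · -- conj_W
    intro d hdD w hw
    obtain ⟨hwI, hθw⟩ := (hPw w).mp hw
    exact (hPw _).mpr ⟨conj_mem_inertia hdD hwI, tameChar_conj_eq_one P hπ0 hdD hwI hθw⟩
  · -- wild
    intro w hw
    obtain ⟨hwI, hθw⟩ := (hPw w).mp hw
    obtain ⟨a, ha⟩ := @Fermat.Agent.BR3.TameStructGQ.exists_pow_apply_eq_of_tameChar_eq_one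
      ℚ Qb _ _ _ P _ p hp hP L hLnormal hLfin π hd w hwI hθw
    exact ⟨a, by rw [← map_pow]; exact hfix _ ha⟩
  · -- gen
    intro s hs
    obtain ⟨j, hj⟩ := hpowers ⟨s, hs⟩
    have hwI : (τ ^ j)⁻¹ * s ∈ P.inertiaSubgroupIn ℚ := mul_mem (inv_mem (pow_mem hτI j)) hs
    refine ⟨j, (τ ^ j)⁻¹ * s, (hPw _).mpr ⟨hwI, ?_⟩, ?_⟩
    · have e : (⟨(τ ^ j)⁻¹ * s, hwI⟩ : ↥(P.inertiaSubgroupIn ℚ)) = (τ₀ ^ j)⁻¹ * ⟨s, hs⟩ := rfl
      rw [e, map_mul, map_inv, map_pow, hj, inv_mul_cancel]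
    · rw [← map_pow, ← map_mul, mul_inv_cancel_left]
  · -- τ_pow
    refine ⟨τ ^ e, (hPw _).mpr ⟨pow_mem hτI e, ?_⟩, (map_pow ρ τ e).symm⟩
    have e' : (⟨τ ^ e, pow_mem hτI e⟩ : ↥(P.inertiaSubgroupIn ℚ)) = τ₀ ^ e := rfl
    rw [e']
    exact hτe
  · -- rel
    have hcI : φ * τ * φ⁻¹ ∈ P.inertiaSubgroupIn ℚ := conj_mem_inertia hφD hτI
    have hwI : (τ ^ p)⁻¹ * (φ * τ * φ⁻¹) ∈ P.inertiaSubgroupIn ℚ :=
      mul_mem (inv_mem (pow_mem hτI p)) hcI
    refine ⟨(τ ^ p)⁻¹ * (φ * τ * φ⁻¹), (hPw _).mpr ⟨hwI, ?_⟩, ?_⟩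
    · have e' : (⟨(τ ^ p)⁻¹ * (φ * τ * φ⁻¹), hwI⟩ : ↥(P.inertiaSubgroupIn ℚ)) =
          (τ₀ ^ p)⁻¹ * ⟨φ * τ * φ⁻¹, hcI⟩ := rfl
      have h1 := tameChar_conj_frob P π hπ0 hφ τ₀
      rw [e', map_mul, map_inv, map_pow]
      show (θ τ₀ ^ p)⁻¹ * tameChar P π hπ0 ⟨φ * (τ₀ : GQ) * φ⁻¹, _⟩ = 1
      rw [h1, inv_mul_cancel]
    · rw [← map_pow, ← map_mul, ← map_mul, ← map_mul]
      congr 1
      group
  · -- wild inertia acts on `L₀` through a `p`-group
    intro w hw
    obtain ⟨hwI, hθw⟩ := (hPw w).mp hw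
    obtain ⟨a, ha⟩ := @Fermat.Agent.BR3.TameStructGQ.exists_pow_apply_eq_of_tameChar_eq_one
      ℚ Qb _ _ _ P _ p hp hP L hLnormal hLfin π hd w hwI hθw
    exact ⟨a, fun x hx => ha x (hL₀L hx)⟩
  · -- `I_P = ⟨τ⟩ W`
    intro s hs
    obtain ⟨j, hj⟩ := hpowers ⟨s, hs⟩
    have hwI : (τ ^ j)⁻¹ * s ∈ P.inertiaSubgroupIn ℚ := mul_mem (inv_mem (pow_mem hτI j)) hs
    refine ⟨j, (τ ^ j)⁻¹ * s, (hPw _).mpr ⟨hwI, ?_⟩, ?_⟩
    · have e : (⟨(τ ^ j)⁻¹ * s, hwI⟩ : ↥(P.inertiaSubgroupIn ℚ)) = (τ₀ ^ j)⁻¹ * ⟨s, hs⟩ := rfl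
      rw [e, map_mul, map_inv, map_pow, hj, inv_mul_cancel]
    · rw [mul_inv_cancel_left]
  · -- `D_P = ⟨φ⟩ I_P` on `L₀`
    intro d hd
    obtain ⟨j, s, hs, h1, h2⟩ := hfrob_gen d hd
    exact ⟨j, s, hs, h1, fun a ha => h2 a (hL₀L ha)⟩

/-- **Tame data of the decomposition group at `p`** (existence form). -/
theorem exists_tameData {p : ℕ} (hp : p.Prime) (P : ValuationSubring Qb) (hP : P.LiesOverPrime p)
    (ρ : GQ →* Module.End k V) (L₀ : IntermediateField ℚ Qb) (hL₀ : FiniteDimensional ℚ L₀)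
    (hfix₀ : ∀ g : GQ, (∀ a ∈ L₀, g a = a) → ρ g = 1) :
    ∃ T : TameData p ρ (P.decompositionSubgroup ℚ) (P.inertiaSubgroupIn ℚ),
      P.IsFrobeniusAt T.φ p := by
  obtain ⟨φ, hφ⟩ := Fermat.Agent.Cheb.exists_isFrobeniusAt_of_liesOverPrime hp hP
  obtain ⟨T, hT, -⟩ := exists_tameData_of_frob hp P hP ρ L₀ hL₀ hfix₀ φ hφ
  exact ⟨T, hT ▸ hφ⟩

end Main

end Fermat.Agent.TW.Shape
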