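import Fermat.Agent.TW.Shape.Roots
import Fermat.Agent.TW.Shape.CycloTame
import Fermat.Prelude.Def_GaloisRep_Residual
import Fermat.Prelude.Def_GaloisRep_LocalConditions

/-!
# PROGRAM G (S56), node F4: the shape of `ρbar|D_P` at a place `P` over `p`

`k` a finite field of characteristic `p` odd, `ρbar : ResidualGaloisRep k` with determinant the
cyclotomic character and all of whose characteristic polynomials split over `k` (hypotheses
`hdet`, `hsplit` of S56), `P` a valuation subring of `ℚ̄` over `p`, `D_P`, `I_P` its decomposition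
and inertia groups, `π ∈ ℚ̄` a root of `X^(p²-1) + p`, `ζ ∈ ℚ̄` a primitive `(p²-1)`-th root of `1`.

`shape_at_p`: either there is a `D_P`-stable line, or `IsLevelTwoAt ρbar p P π ζ`: in a basis
`b₀, b₁` the inertia group acts by `diag(ξ^n, ξ^(np))` on `s` with `s π = ζ^n π`
(`ρbar|I_P = ψ ⊕ ψ^p`, `ψ` = `ξ` to the tame character of `π`), `ξ^p ≠ ξ`, `ξ^(p²) = ξ`,
`ξ^((p²-1)/2) = -1` (this is `det = ω`), every Frobenius element swaps the lines, every element of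
`D_P` preserves or swaps them, and the elements of `D_P` fixing `π` and `ζ` act by scalars.
-/

set_option autoImplicit false
set_option linter.style.haveILetI false
set_option linter.unusedSectionVars false

open Polynomial

namespace Fermat.Agent.TW.Shape

local notation "Qb" => AlgebraicClosure ℚ
local notation "GQ" => (AlgebraicClosure ℚ ≃ₐ[ℚ] AlgebraicClosure ℚ)

/-- the supersingular (level two) shape of `ρbar` at `P`, relative to a root `π` of `X^(p²-1)+p`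
and a primitive `(p²-1)`-th root of unity `ζ` in `ℚ̄`. -/
def IsLevelTwoAt {k : Type} [Field k] (ρbar : ResidualGaloisRep k) (p : ℕ)
    (P : ValuationSubring Qb) (π ζ : Qb) : Prop :=
  ∃ (b : Module.Basis (Fin 2) k ρbar.V) (ξ : k),
    ξ ^ p ≠ ξ ∧ ξ ^ (p ^ 2) = ξ ∧ ξ ^ ((p ^ 2 - 1) / 2) = -1 ∧
    (∀ s ∈ P.inertiaSubgroupIn ℚ, ∀ n : ℕ, s π = ζ ^ n * π →
      ρbar.ρ s (b 0) = ξ ^ n • b 0 ∧ ρbar.ρ s (b 1) = ξ ^ (n * p) • b 1) ∧
    (∀ φ : GQ, P.IsFrobeniusAt φ p →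
      (∃ c : k, ρbar.ρ φ (b 0) = c • b 1) ∧ (∃ c : k, ρbar.ρ φ (b 1) = c • b 0)) ∧
    (∀ σ ∈ P.decompositionSubgroup ℚ,
      ((∃ c : k, ρbar.ρ σ (b 0) = c • b 0) ∧ (∃ c : k, ρbar.ρ σ (b 1) = c • b 1)) ∨
      ((∃ c : k, ρbar.ρ σ (b 0) = c • b 1) ∧ (∃ c : k, ρbar.ρ σ (b 1) = c • b 0))) ∧
    (∀ σ ∈ P.decompositionSubgroup ℚ, σ π = π → σ ζ = ζ →
      ∃ c : k, ρbar.ρ σ = c • (1 : Module.End k ρbar.V))

section LinAlg

variable {k : Type*} [Field k] {V : Type*} [AddCommGroup V] [Module k V]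
  (b : Module.Basis (Fin 2) k V)

/-- `f` preserves the two coordinate lines of `b`. -/
def DiagOn (f : Module.End k V) : Prop :=
  (∃ c : k, f (b 0) = c • b 0) ∧ (∃ c : k, f (b 1) = c • b 1)

/-- `f` swaps the two coordinate lines of `b`. -/
def AntiOn (f : Module.End k V) : Prop :=
  (∃ c : k, f (b 0) = c • b 1) ∧ (∃ c : k, f (b 1) = c • b 0)

variable {b}

theorem DiagOn.mul {f g : Module.End k V} (hf : DiagOn b f) (hg : DiagOn b g) :
    DiagOn b (f * g) := by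
  obtain ⟨⟨a0, h0⟩, ⟨a1, h1⟩⟩ := hf
  obtain ⟨⟨c0, g0⟩, ⟨c1, g1⟩⟩ := hg
  refine ⟨⟨c0 * a0, ?_⟩, ⟨c1 * a1, ?_⟩⟩
  · rw [Module.End.mul_apply, g0, map_smul, h0, smul_smul]
  · rw [Module.End.mul_apply, g1, map_smul, h1, smul_smul]

theorem AntiOn.mul_diag {f g : Module.End k V} (hf : AntiOn b f) (hg : DiagOn b g) :
    AntiOn b (f * g) := by
  obtain ⟨⟨a0, h0⟩, ⟨a1, h1⟩⟩ := hf
  obtain ⟨⟨c0, g0⟩, ⟨c1, g1⟩⟩ := hg
  refine ⟨⟨c0 * a0, ?_⟩, ⟨c1 * a1, ?_⟩⟩
  · rw [Module.End.mul_apply, g0, map_smul, h0, smul_smul]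
  · rw [Module.End.mul_apply, g1, map_smul, h1, smul_smul]

theorem DiagOn.mul_anti {f g : Module.End k V} (hf : DiagOn b f) (hg : AntiOn b g) :
    AntiOn b (f * g) := by
  obtain ⟨⟨a0, h0⟩, ⟨a1, h1⟩⟩ := hf
  obtain ⟨⟨c0, g0⟩, ⟨c1, g1⟩⟩ := hg
  refine ⟨⟨c0 * a1, ?_⟩, ⟨c1 * a0, ?_⟩⟩
  · rw [Module.End.mul_apply, g0, map_smul, h1, smul_smul]
  · rw [Module.End.mul_apply, g1, map_smul, h0, smul_smul]

theorem AntiOn.mul_anti {f g : Module.End k V} (hf : AntiOn b f) (hg : AntiOn b g) :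
    DiagOn b (f * g) := by
  obtain ⟨⟨a0, h0⟩, ⟨a1, h1⟩⟩ := hf
  obtain ⟨⟨c0, g0⟩, ⟨c1, g1⟩⟩ := hg
  refine ⟨⟨c0 * a1, ?_⟩, ⟨c1 * a0, ?_⟩⟩
  · rw [Module.End.mul_apply, g0, map_smul, h1, smul_smul]
  · rw [Module.End.mul_apply, g1, map_smul, h0, smul_smul]

theorem diagOn_one : DiagOn b (1 : Module.End k V) :=
  ⟨⟨1, by simp⟩, ⟨1, by simp⟩⟩

theorem diagOn_or_antiOn_pow {f : Module.End k V} (hf : AntiOn b f) (j : ℕ) :
    DiagOn b (f ^ j) ∨ AntiOn b (f ^ j) := by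
  induction j with
  | zero => left; rw [pow_zero]; exact diagOn_one
  | succ j ih =>
    rw [pow_succ]
    rcases ih with h | h
    · right; exact h.mul_anti hf
    · left; exact h.mul_anti hf

theorem pow_apply_basis {f : Module.End k V} {i : Fin 2} {a : k} (h : f (b i) = a • b i) (j : ℕ) :
    (f ^ j) (b i) = a ^ j • b i := by
  induction j with
  | zero => simp
  | succ j ih => rw [pow_succ, Module.End.mul_apply, h, map_smul, ih, smul_smul, pow_succ, mul_comm]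

/-- an antidiagonal endomorphism has scalar even powers. -/
theorem pow_two_mul_eq_smul_one {f : Module.End k V} {c c' : k} (h0 : f (b 0) = c • b 1)
    (h1 : f (b 1) = c' • b 0) (m : ℕ) : f ^ (2 * m) = (c * c') ^ m • (1 : Module.End k V) := by
  have h2 : f ^ 2 = (c * c') • (1 : Module.End k V) := by
    apply b.ext
    intro i
    fin_cases i
    · show (f ^ 2) (b 0) = ((c * c') • (1 : Module.End k V)) (b 0)
      rw [pow_two, Module.End.mul_apply, h0, map_smul, h1, smul_smul]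
      simp
    · show (f ^ 2) (b 1) = ((c * c') • (1 : Module.End k V)) (b 1)
      rw [pow_two, Module.End.mul_apply, h1, map_smul, h0, smul_smul]
      simp [mul_comm]
  rw [pow_mul, h2, _root_.smul_pow, one_pow]

theorem eq_one_of_apply_basis {f : Module.End k V} (h0 : f (b 0) = b 0) (h1 : f (b 1) = b 1) :
    f = 1 := by
  apply b.ext
  intro i
  fin_cases i
  · exact h0
  · exact h1

theorem det_eq_mul_of_apply_basis {f : Module.End k V} {a0 a1 : k} (h0 : f (b 0) = a0 • b 0)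
    (h1 : f (b 1) = a1 • b 1) : LinearMap.det f = a0 * a1 := by
  rw [← LinearMap.det_toMatrix b, Matrix.det_fin_two]
  simp [LinearMap.toMatrix_apply, h0, h1]

end LinAlg

/-- exponents: `x ^ e = 1` and `a ≡ b mod e` give `x ^ a = x ^ b`. -/
theorem pow_eq_pow_of_modEq' {M : Type*} [Monoid M] {x : M} {e a b : ℕ} (hx : x ^ e = 1)
    (h : a ≡ b [MOD e]) : x ^ a = x ^ b := by
  have h1 : ∀ n : ℕ, x ^ n = x ^ (n % e) := by
    intro n
    conv_lhs => rw [← Nat.mod_add_div n e]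
    rw [pow_add, pow_mul, hx, one_pow, mul_one]
  rw [h1 a, h1 b, h]

section Arith

/-- `p ∤ p² - 1`. -/
theorem not_dvd_sq_sub_one {p : ℕ} (hp : p.Prime) : ¬ p ∣ p ^ 2 - 1 := by
  intro h
  have h1 : p ∣ p ^ 2 := dvd_pow_self p two_ne_zero
  have h2 : 1 ≤ p ^ 2 := Nat.one_le_pow _ _ hp.pos
  have h3 : p ∣ p ^ 2 - (p ^ 2 - 1) := Nat.dvd_sub h1 h
  have h4 : p ^ 2 - (p ^ 2 - 1) = 1 := by omega
  rw [h4] at h3
  exact hp.one_lt.ne' (Nat.dvd_one.mp h3)

/-- `p ^ j ≡ 1 mod p² - 1` forces `j` even (`p ≥ 3`). -/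
theorem even_of_pow_modEq_one {p : ℕ} (hp : p.Prime) (hp2 : p ≠ 2) {j : ℕ}
    (h : p ^ j ≡ 1 [MOD p ^ 2 - 1]) : Even j := by
  have hp3 : 3 ≤ p := by
    have := hp.two_le
    omega
  have hsq : p ^ 2 ≡ 1 [MOD p ^ 2 - 1] := by
    have h1 : 1 ≤ p ^ 2 := Nat.one_le_pow _ _ hp.pos
    have : p ^ 2 = 1 + (p ^ 2 - 1) := by omega
    conv_lhs => rw [this]
    simp [Nat.ModEq]
  rcases Nat.even_or_odd' j with ⟨m, hm | hm⟩
  · exact ⟨m, by omega⟩
  · exfalso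
    have h1 : p ^ j ≡ p [MOD p ^ 2 - 1] := by
      have h5 : p ^ j = (p ^ 2) ^ m * p := by rw [hm, pow_succ, pow_mul]
      rw [h5]
      have := (hsq.pow m).mul_right p
      rwa [one_pow, one_mul] at this
    have h2 : p ≡ 1 [MOD p ^ 2 - 1] := h1.symm.trans h
    have h3 : p < p ^ 2 - 1 := by
      have h6 : 3 * p ≤ p ^ 2 := by nlinarith
      omega
    have h4 : 1 < p ^ 2 - 1 := by omega
    rw [Nat.ModEq, Nat.mod_eq_of_lt h3, Nat.mod_eq_of_lt h4] at h2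
    omega

end Arith

section Main

/-- exponents of a primitive root. -/
theorem modEq_of_pow_eq_pow_of_isPrimitiveRoot {M : Type*} [CommMonoid M] {ζ : M} {e a b : ℕ}
    (he : 0 < e) (hζ : IsPrimitiveRoot ζ e) (h : ζ ^ a = ζ ^ b) : a ≡ b [MOD e] := by
  have hfin : IsOfFinOrder ζ := isOfFinOrder_iff_pow_eq_one.mpr ⟨e, he, hζ.pow_eq_one⟩
  have := hfin.pow_eq_pow_iff_modEq.mp h
  rwa [← hζ.eq_orderOf] at this

theorem sq_sub_one_div_two_eq {p : ℕ} (hodd : Odd p) :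
    (p ^ 2 - 1) / 2 = (p + 1) * ((p - 1) / 2) := by
  obtain ⟨t, ht⟩ := hodd
  rw [ht]
  have h1 : (2 * t + 1) ^ 2 - 1 = 2 * (2 * t * (t + 1)) := by
    have : (2 * t + 1) ^ 2 = 2 * (2 * t * (t + 1)) + 1 := by ring
    omega
  have h2 : (2 * t + 1 - 1) / 2 = t := by omega
  rw [h1, h2, Nat.mul_div_cancel_left _ two_pos]
  ring

variable {k : Type} [Field k] [Finite k] {p : ℕ} [Fact p.Prime] [CharP k p]

/-- **F4 (global form): the shape of `ρbar|D_P` at a place over `p`.** -/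
theorem shape_at_p (hp2 : p ≠ 2) (ρbar : ResidualGaloisRep k)
    (hdet : (GaloisRepAdic.ofResidualGaloisRep ρbar).DetIsCyclotomic p)
    (hsplit : ∀ σ : GQ, ∃ α β : k, LinearMap.charpoly (ρbar.ρ σ) = (X - C α) * (X - C β))
    (P : ValuationSubring Qb) (hP : P.LiesOverPrime p)
    (π ζ : Qb) (hπ : π ^ (p ^ 2 - 1) = -(p : Qb)) (hζ : IsPrimitiveRoot ζ (p ^ 2 - 1)) :
    (∃ ℓ : Submodule k ρbar.V, Module.finrank k ℓ = 1 ∧
      ∀ σ ∈ P.decompositionSubgroup ℚ, ∀ v ∈ ℓ, ρbar.ρ σ v ∈ ℓ) ∨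
    IsLevelTwoAt ρbar p P π ζ := by
  classical
  have hp : p.Prime := Fact.out
  haveI := Fermat.Agent.BR2.TameRho.isAlgebraic_Qbar
  set e := p ^ 2 - 1 with he_def
  have hp3 : 3 ≤ p := by
    have := hp.two_le
    omega
  have he_pos : 0 < e := by
    have : 9 ≤ p ^ 2 := by nlinarith
    omega
  have he_cop : ¬ p ∣ e := not_dvd_sq_sub_one hp
  have hζe : ζ ^ e = 1 := hζ.pow_eq_one
  have hp0 : p ≠ 0 := hp.ne_zero
  have hpQ : (p : Qb) ≠ 0 := Nat.cast_ne_zero.mpr hp0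
  have hπ0 : π ≠ 0 := by
    intro h0
    rw [h0, zero_pow he_pos.ne'] at hπ
    exact hpQ (neg_eq_zero.mp hπ.symm)
  -- the level
  obtain ⟨L₁, hL₁fin, hL₁fix⟩ := ρbar.factorsThroughFiniteLevel
  let L₂ : IntermediateField ℚ Qb := IntermediateField.adjoin ℚ {π, ζ}
  haveI := hL₁fin
  haveI : FiniteDimensional ℚ L₂ := by
    apply IntermediateField.finiteDimensional_adjoin
    intro x _
    exact (Algebra.IsAlgebraic.isAlgebraic x).isIntegral
  let L₀ : IntermediateField ℚ Qb := L₁ ⊔ L₂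
  have hL₀fin : FiniteDimensional ℚ L₀ := IntermediateField.finiteDimensional_sup L₁ L₂
  have hπL₀ : π ∈ L₀ :=
    (le_sup_right : L₂ ≤ L₀) (IntermediateField.subset_adjoin ℚ _ (by simp))
  have hζL₀ : ζ ∈ L₀ :=
    (le_sup_right : L₂ ≤ L₀) (IntermediateField.subset_adjoin ℚ _ (by simp))
  have hfix₀ : ∀ g : GQ, (∀ a ∈ L₀, g a = a) → ρbar.ρ g = 1 :=
    fun g hg => hL₁fix g fun a ha => hg a ((le_sup_left : L₁ ≤ L₀) ha)
  -- a Frobenius element fixing `π`, and the tame data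
  obtain ⟨φ, hφ, hφπ⟩ := exists_isFrobeniusAt_apply_eq hp P hP he_pos hπ
  obtain ⟨T, hTφ, hE1, hE2, hE3⟩ :=
    exists_tameData_of_frob hp P hP ρbar.ρ L₀ hL₀fin hfix₀ φ hφ
  rcases shape T ρbar.finrank_eq (fun d _ => hsplit d) with
    hR | ⟨hW, b, ζk, hζk1, hζk2, hg0, hg1, ⟨c01, hφ0⟩, ⟨c10, hφ1⟩⟩
  · exact Or.inl hR
  right
  rw [hTφ] at hφ0 hφ1
  set g := T.τ with hg_def
  have hgI : g ∈ P.inertiaSubgroupIn ℚ := T.τ_mem
  have hζk0 : ζk ≠ 0 := by
    rintro rfl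
    apply hζk1
    rw [zero_pow hp0]
  have hζke : ζk ^ e = 1 := by
    have h1 : ζk ^ e * ζk = ζk := by
      rw [← pow_succ, he_def, Nat.sub_add_cancel (Nat.one_le_pow _ _ hp.pos)]
      exact hζk2
    exact mul_right_cancel₀ hζk0 (by rw [h1, one_mul])
  -- wild inertia fixes `π`
  have hWπ : ∀ w ∈ T.W, w π = π := by
    intro w hw
    have hwI := T.W_le hw
    obtain ⟨n, hn⟩ := hE1 w hw
    obtain ⟨m, hm, hwm⟩ := exists_apply_eq_pow_mul he_pos hπ hp0 hζ w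
    have h1 := pow_apply_eq_of_apply_eq hp P hP he_cop hζe hwI hwm (p ^ n)
    rw [hn π hπL₀] at h1
    have h2 : ζ ^ (m * p ^ n) = 1 :=
      mul_right_cancel₀ hπ0 (by rw [one_mul]; exact h1.symm)
    have h3 : e ∣ m * p ^ n := (hζ.pow_eq_one_iff_dvd _).mp h2
    have hcop : Nat.Coprime e (p ^ n) :=
      Nat.Coprime.pow_right n ((Nat.Prime.coprime_iff_not_dvd hp).mpr he_cop).symm
    have h4 : e ∣ m := hcop.dvd_of_dvd_mul_right h3
    have h5 : m = 0 := Nat.eq_zero_of_dvd_of_lt h4 hm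
    rw [hwm, h5, pow_zero, one_mul]
  -- the exponent of `g`
  obtain ⟨ng, -, hgπ⟩ := exists_apply_eq_pow_mul he_pos hπ hp0 hζ g
  have hρgj : ∀ j : ℕ, (ρbar.ρ g ^ j) (b 0) = ζk ^ j • b 0 ∧
      (ρbar.ρ g ^ j) (b 1) = (ζk ^ p) ^ j • b 1 :=
    fun j => ⟨pow_apply_basis hg0 j, pow_apply_basis hg1 j⟩
  have hdec : ∀ s ∈ P.inertiaSubgroupIn ℚ, ∃ j : ℕ, ρbar.ρ s = ρbar.ρ g ^ j ∧
      s π = ζ ^ (ng * j) * π := by
    intro s hs
    obtain ⟨j, w, hw, rfl⟩ := hE2 s hs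
    refine ⟨j, ?_, ?_⟩
    · rw [map_mul, hW w hw, mul_one, map_pow]
    · rw [AlgEquiv.mul_apply, hWπ w hw]
      exact pow_apply_eq_of_apply_eq hp P hP he_cop hζe hgI hgπ j
  -- the element `τ`
  obtain ⟨τ, hτI, hτπ⟩ := exists_mem_inertia_apply_eq hp P hP he_pos hπ hζe
  obtain ⟨i, hρτ, hτπ'⟩ := hdec τ hτI
  have hmod1 : ng * i ≡ 1 [MOD e] := by
    apply modEq_of_pow_eq_pow_of_isPrimitiveRoot he_pos hζ
    rw [pow_one]
    exact mul_right_cancel₀ hπ0 (hτπ'.symm.trans hτπ)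
  set ξ := ζk ^ i with hξ
  have hkey : ∀ s ∈ P.inertiaSubgroupIn ℚ, ∀ n : ℕ, s π = ζ ^ n * π →
      ρbar.ρ s (b 0) = ξ ^ n • b 0 ∧ ρbar.ρ s (b 1) = ξ ^ (n * p) • b 1 := by
    intro s hs n hsn
    obtain ⟨j, hρs, hsπ⟩ := hdec s hs
    have h1 : ng * j ≡ n [MOD e] := by
      apply modEq_of_pow_eq_pow_of_isPrimitiveRoot he_pos hζ
      exact mul_right_cancel₀ hπ0 (hsπ.symm.trans hsn)
    have h2 : j ≡ i * n [MOD e] := by
      have h3 : j * (ng * i) ≡ j * 1 [MOD e] := hmod1.mul_left j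
      have h4 : i * (ng * j) ≡ i * n [MOD e] := h1.mul_left i
      have h5 : j * (ng * i) = i * (ng * j) := by ring
      rw [mul_one, h5] at h3
      exact h3.symm.trans h4
    have h3 : ζk ^ j = ξ ^ n := by
      rw [hξ, ← pow_mul]
      exact pow_eq_pow_of_modEq' hζke h2
    rw [hρs]
    refine ⟨?_, ?_⟩
    · rw [(hρgj j).1, h3]
    · rw [(hρgj j).2, ← pow_mul, mul_comm p j, pow_mul, h3, ← pow_mul]
  have hb0 : b 0 ≠ 0 := b.ne_zero 0
  have hζkξ : ζk = ξ ^ ng := by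
    have h1 := (hkey g hgI ng hgπ).1
    rw [hg0] at h1
    exact smul_left_injective k hb0 h1
  have hξ1 : ξ ^ p ≠ ξ := by
    intro h
    apply hζk1
    rw [hζkξ, ← pow_mul, mul_comm, pow_mul, h]
  have hξ2 : ξ ^ (p ^ 2) = ξ := by
    rw [hξ, ← pow_mul, mul_comm, pow_mul, hζk2]
  -- the determinant
  have hξ3 : ξ ^ ((p ^ 2 - 1) / 2) = -1 := by
    haveI : NeZero ((p : ℕ) : Qb) := ⟨hpQ⟩
    haveI : NeZero p := ⟨hp0⟩
    obtain ⟨μ₀, hμ₀⟩ : ∃ μ₀ : Qb, IsPrimitiveRoot μ₀ p :=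
      HasEnoughRootsOfUnity.exists_primitiveRoot Qb p
    have hτμ : (τ μ₀) ^ p = 1 := by rw [← map_pow, hμ₀.pow_eq_one, map_one]
    obtain ⟨a, -, ha⟩ := hμ₀.eq_pow_of_pow_eq_one hτμ
    have ha' : ∀ μ : Qb, μ ^ p = 1 → τ μ = μ ^ a := by
      intro μ hμ
      obtain ⟨c, -, rfl⟩ := hμ₀.eq_pow_of_pow_eq_one hμ
      rw [map_pow, ← ha, ← pow_mul, ← pow_mul, mul_comm]
    have hdetτ : LinearMap.det (ρbar.ρ τ) = (a : k) := by
      have h1 := hdet.2 1 τ a (by simpa using ha')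
      have h2 : ((p ^ 1 : ℕ) : k) = 0 := by
        rw [pow_one]
        exact CharP.cast_eq_zero k p
      rw [h2, Ideal.span_singleton_eq_bot.mpr rfl, Ideal.mem_bot, sub_eq_zero] at h1
      exact h1
    have hτdiag := hkey τ hτI 1 (by rw [pow_one]; exact hτπ)
    rw [pow_one, one_mul] at hτdiag
    have hdet2 : LinearMap.det (ρbar.ρ τ) = ξ * ξ ^ p :=
      det_eq_mul_of_apply_basis hτdiag.1 hτdiag.2
    have hξa : ξ ^ (p + 1) = (a : k) := by rw [pow_succ', ← hdet2, hdetτ]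
    have hmul : (p + 1) * (p - 1) = p ^ 2 - 1 := by
      have h1 : p = (p - 1) + 1 := by omega
      have h2 : p ^ 2 = (p + 1) * (p - 1) + 1 := by
        conv_lhs => rw [h1]
        conv_rhs => rw [show p + 1 = (p - 1) + 2 by omega]
        ring
      omega
    have hϖ : (π ^ (p + 1)) ^ (p - 1) = -(p : Qb) := by
      rw [← pow_mul, hmul]
      exact hπ
    have hct := cyclo_tame hp P hP hϖ hτI ha'
    have h3 : τ (π ^ (p + 1)) / π ^ (p + 1) = ζ ^ (p + 1) := by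
      rw [map_pow, hτπ, mul_pow]
      field_simp
    rw [h3] at hct
    set m := (p - 1) / 2 with hm
    have hvζ : P.valuation ζ = 1 :=
      valuation_eq_one_of_pow_eq_one hp P hP he_pos.ne' hζe
    have h4 : P.valuation ((ζ ^ (p + 1)) ^ m - (a : Qb) ^ m) < 1 := by
      have hgs := (Commute.all (ζ ^ (p + 1)) (a : Qb)).geom_sum₂_mul m
      rw [← hgs, map_mul]
      have hle : P.valuation (∑ i ∈ Finset.range m,
          (ζ ^ (p + 1)) ^ i * (a : Qb) ^ (m - 1 - i)) ≤ 1 := by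
        apply Valuation.map_sum_le
        intro i _
        rw [map_mul, map_pow, map_pow, map_pow, hvζ, one_pow, one_pow, one_mul]
        exact pow_le_one₀ zero_le (Fermat.Agent.S05.valuation_natCast_le_one P a)
      calc P.valuation (∑ i ∈ Finset.range m, (ζ ^ (p + 1)) ^ i * (a : Qb) ^ (m - 1 - i)) *
            P.valuation (ζ ^ (p + 1) - (a : Qb))
          ≤ 1 * P.valuation (ζ ^ (p + 1) - (a : Qb)) := mul_le_mul_of_nonneg_right hle zero_le
        _ = P.valuation (ζ ^ (p + 1) - (a : Qb)) := one_mul _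
        _ < 1 := hct
    have hodd : Odd p := hp.odd_of_ne_two hp2
    have hexp : (p ^ 2 - 1) / 2 = (p + 1) * m := sq_sub_one_div_two_eq hodd
    have h5 : (ζ ^ (p + 1)) ^ m = -1 := by
      rw [← pow_mul, ← hexp]
      have heven : 2 ∣ e := by
        rw [he_def, ← hmul]
        obtain ⟨t, ht⟩ := hodd
        exact ⟨(t + 1) * (p - 1), by rw [ht]; ring⟩
      have hsq : ζ ^ (e / 2) * ζ ^ (e / 2) = 1 := by
        rw [← pow_add, ← two_mul, Nat.mul_div_cancel' heven]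
        exact hζe
      rcases mul_self_eq_one_iff.mp hsq with h | h
      · exfalso
        have hlt : e / 2 < e := Nat.div_lt_self he_pos one_lt_two
        have hpos : 0 < e / 2 := Nat.div_pos (by omega) two_pos
        exact hζ.pow_ne_one_of_pos_of_lt hpos.ne' hlt h
      · exact h
    rw [h5] at h4
    have h6 : P.valuation (((a ^ m + 1 : ℕ) : ℤ) : Qb) < 1 := by
      have h7 : (((a ^ m + 1 : ℕ) : ℤ) : Qb) = -(-1 - (a : Qb) ^ m) := by
        push_cast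
        ring
      rw [h7, Valuation.map_neg]
      exact h4
    have h7 : (p : ℤ) ∣ ((a ^ m + 1 : ℕ) : ℤ) :=
      (Fermat.Agent.S05.valuation_intCast_lt_one_iff P hp hP _).mp h6
    have h8 : ((a ^ m + 1 : ℕ) : k) = 0 :=
      (CharP.cast_eq_zero_iff k p _).mpr (by exact_mod_cast h7)
    have h9 : (a : k) ^ m = -1 := by
      push_cast at h8
      exact eq_neg_of_add_eq_zero_left h8
    rw [hexp, pow_mul, hξa, h9]
  -- the matrix shapes
  have hφanti : AntiOn b (ρbar.ρ φ) := ⟨⟨c01, hφ0⟩, ⟨c10, hφ1⟩⟩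
  have hIdiag : ∀ s ∈ P.inertiaSubgroupIn ℚ, DiagOn b (ρbar.ρ s) := by
    intro s hs
    obtain ⟨n, -, hn⟩ := exists_apply_eq_pow_mul he_pos hπ hp0 hζ s
    obtain ⟨h0, h1⟩ := hkey s hs n hn
    exact ⟨⟨_, h0⟩, ⟨_, h1⟩⟩
  refine ⟨b, ξ, hξ1, hξ2, hξ3, hkey, ?_, ?_, ?_⟩
  · -- every Frobenius element swaps the lines
    intro φ' hφ'
    have h1 : φ' * φ⁻¹ ∈ P.inertiaSubgroupIn ℚ :=
      Fermat.Agent.Cheb.mul_inv_mem_inertiaSubgroupIn hφ' hφ
    have h2 : ρbar.ρ φ' = ρbar.ρ (φ' * φ⁻¹) * ρbar.ρ φ := by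
      rw [← map_mul, inv_mul_cancel_right]
    rw [h2]
    exact (hIdiag _ h1).mul_anti hφanti
  · -- the decomposition group preserves or swaps the lines
    intro σ hσ
    obtain ⟨j, s, hs, hρσ, -⟩ := hE3 σ hσ
    rw [hρσ]
    rcases diagOn_or_antiOn_pow hφanti j with h | h
    · left
      exact h.mul (hIdiag s hs)
    · right
      exact h.mul_diag (hIdiag s hs)
  · -- the elements fixing `π` and `ζ` act by scalars
    intro σ hσ hσπ hσζ
    obtain ⟨j, s, hs, hρσ, hσL⟩ := hE3 σ hσ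
    have hφjπ : (φ ^ j) π = π := by
      clear hρσ hσL
      induction j with
      | zero => simp
      | succ j ih => rw [pow_succ, AlgEquiv.mul_apply, hφπ, ih]
    have h1 : s π = π := by
      have h2 := hσL π hπL₀
      rw [hσπ] at h2
      have h3 : (φ ^ j) π = (φ ^ j) (s π) := by rw [hφjπ]; exact h2
      exact ((φ ^ j).injective h3).symm
    have hρs : ρbar.ρ s = 1 := by
      obtain ⟨h0, h1'⟩ := hkey s hs 0 (by rw [pow_zero, one_mul]; exact h1)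
      apply eq_one_of_apply_basis (b := b)
      · rw [h0, pow_zero, one_smul]
      · rw [h1', zero_mul, pow_zero, one_smul]
    have hsζ : s ζ = ζ := apply_eq_of_mem_inertia_of_pow_eq_one hp P hP he_cop hζe hs
    have h2 : ζ ^ p ^ j = ζ := by
      have h3 := hσL ζ hζL₀
      rw [hσζ, hsζ, IsFrobeniusAt_pow_apply_of_pow_eq_one hp P hP he_cop hζe hφ j] at h3
      exact h3.symm
    have h3 : p ^ j ≡ 1 [MOD e] := by
      apply modEq_of_pow_eq_pow_of_isPrimitiveRoot he_pos hζ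
      rw [pow_one]
      exact h2
    obtain ⟨m, hm⟩ := even_of_pow_modEq_one hp hp2 h3
    refine ⟨(c01 * c10) ^ m, ?_⟩
    rw [hρσ, hρs, mul_one, hm, ← two_mul]
    exact pow_two_mul_eq_smul_one hφ0 hφ1 m

end Main

end Fermat.Agent.TW.Shape
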