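import Fermat.Agent.TW.Shape.Level
import Fermat.Agent.S13.InertiaValue

/-!
# PROGRAM G (S56), node F4: inertia and Frobenius on roots of unity and on the roots of `X^e + p`

`P` a valuation subring of `ℚ̄` over `p`, `I_P`, `D_P` its inertia and decomposition groups.
* `eq_of_pow_eq_one_of_valuation_sub_lt_one`: reduction modulo `𝔪_P` is injective on the `e`-th
  roots of unity, `p ∤ e`;
* `apply_eq_of_mem_inertia_of_pow_eq_one`: `I_P` fixes them; `IsFrobeniusAt_apply_of_pow_eq_one`: a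
  Frobenius element raises them to the `p`-th power;
* `exists_mem_inertia_apply_eq`: `I_P` is transitive on the roots of `X^e + p`;
* `exists_isFrobeniusAt_apply_eq`: there is a Frobenius element at `P` fixing a given root of
  `X^e + p`.
-/

set_option autoImplicit false
set_option linter.style.haveILetI false
set_option linter.unusedSectionVars false

open Polynomial

namespace Fermat.Agent.TW.Shape

open Fermat.Agent.BR2.TameChar

local notation "Qb" => AlgebraicClosure ℚ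
local notation "GQ" => (AlgebraicClosure ℚ ≃ₐ[ℚ] AlgebraicClosure ℚ)

variable {p : ℕ} (hp : p.Prime) (P : ValuationSubring Qb) (hP : P.LiesOverPrime p)

include hp hP

theorem valuation_natCast_eq_one_of_not_dvd {e : ℕ} (he : ¬ p ∣ e) :
    P.valuation (e : Qb) = 1 := by
  have h := Fermat.Agent.S05.valuation_intCast_eq_one_of_not_dvd P hp hP (n := (e : ℤ))
    (by exact_mod_cast he)
  simpa using h

theorem valuation_eq_one_of_pow_eq_one {e : ℕ} (he0 : e ≠ 0) {y : Qb} (hy : y ^ e = 1) :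
    P.valuation y = 1 := by
  have h1 : P.valuation y ^ e = 1 := by rw [← map_pow, hy, map_one]
  exact (pow_eq_one_iff_left he0).mp h1

/-- reduction modulo `𝔪_P` is injective on the roots of unity of order prime to `p`. -/
theorem eq_of_pow_eq_one_of_valuation_sub_lt_one {e : ℕ} (he : ¬ p ∣ e) {x y : Qb}
    (hx : x ^ e = 1) (hy : y ^ e = 1) (h : P.valuation (x - y) < 1) : x = y := by
  by_contra hne
  have he0 : e ≠ 0 := fun h0 => he (h0 ▸ dvd_zero p)
  have hy0 : y ≠ 0 := fun h0 => by rw [h0, zero_pow he0] at hy; exact zero_ne_one hy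
  have hvy : P.valuation y = 1 := valuation_eq_one_of_pow_eq_one hp P hP he0 hy
  set u := x * y⁻¹ with hu_def
  have hu : u ^ e = 1 := by rw [hu_def, mul_pow, inv_pow, hx, hy]; simp
  have hu1 : u ≠ 1 := by
    intro h1
    apply hne
    rw [hu_def] at h1
    field_simp at h1
    exact h1
  have hvu1 : P.valuation u = 1 := valuation_eq_one_of_pow_eq_one hp P hP he0 hu
  have hvu : P.valuation (u - 1) < 1 := by
    have e1 : u - 1 = (x - y) * y⁻¹ := by rw [hu_def]; field_simp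
    rw [e1, map_mul, map_inv₀, hvy, inv_one, mul_one]
    exact h
  have hgs : ∑ i ∈ Finset.range e, u ^ i = 0 := by
    have h1 := geom_sum_mul u e
    rw [hu, sub_self] at h1
    exact (mul_eq_zero.mp h1).resolve_right (sub_ne_zero.mpr hu1)
  have h2 : (e : Qb) = ∑ i ∈ Finset.range e, (1 - u ^ i) := by
    rw [Finset.sum_sub_distrib, hgs, sub_zero]
    simp
  have h3 : P.valuation (e : Qb) < 1 := by
    rw [h2]
    apply Valuation.map_sum_lt _ one_ne_zero
    intro i _
    have h4 := geom_sum_mul u i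
    have e1 : 1 - u ^ i = -((∑ j ∈ Finset.range i, u ^ j) * (u - 1)) := by rw [h4]; ring
    rw [e1, Valuation.map_neg, map_mul]
    have h5 : P.valuation (∑ j ∈ Finset.range i, u ^ j) ≤ 1 := by
      apply Valuation.map_sum_le
      intro j _
      rw [map_pow, hvu1, one_pow]
    calc P.valuation (∑ j ∈ Finset.range i, u ^ j) * P.valuation (u - 1)
        ≤ 1 * P.valuation (u - 1) := mul_le_mul_of_nonneg_right h5 zero_le
      _ = P.valuation (u - 1) := one_mul _
      _ < 1 := hvu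
  rw [valuation_natCast_eq_one_of_not_dvd hp P hP he] at h3
  exact lt_irrefl _ h3

/-- the inertia group fixes the roots of unity of order prime to `p`. -/
theorem apply_eq_of_mem_inertia_of_pow_eq_one {e : ℕ} (he : ¬ p ∣ e) {ζ : Qb} (hζ : ζ ^ e = 1)
    {s : GQ} (hs : s ∈ P.inertiaSubgroupIn ℚ) : s ζ = ζ := by
  have he0 : e ≠ 0 := fun h0 => he (h0 ▸ dvd_zero p)
  have hvζ : P.valuation ζ = 1 := valuation_eq_one_of_pow_eq_one hp P hP he0 hζ
  apply eq_of_pow_eq_one_of_valuation_sub_lt_one hp P hP he _ hζ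
  · exact Fermat.Agent.S05.valuation_apply_sub_lt_one P hs hvζ.le
  · rw [← map_pow, hζ, map_one]

/-- a Frobenius element raises the roots of unity of order prime to `p` to the `p`-th power. -/
theorem IsFrobeniusAt_apply_of_pow_eq_one {e : ℕ} (he : ¬ p ∣ e) {ζ : Qb} (hζ : ζ ^ e = 1)
    {φ : GQ} (hφ : P.IsFrobeniusAt φ p) : φ ζ = ζ ^ p := by
  have he0 : e ≠ 0 := fun h0 => he (h0 ▸ dvd_zero p)
  have hvζ : P.valuation ζ = 1 := valuation_eq_one_of_pow_eq_one hp P hP he0 hζ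
  apply eq_of_pow_eq_one_of_valuation_sub_lt_one hp P hP he
  · rw [← map_pow, hζ, map_one]
  · rw [← pow_mul, mul_comm, pow_mul, hζ, one_pow]
  · exact ((isFrobeniusAt_iff P).mp hφ).2 ζ ((P.valuation_le_one_iff ζ).mp hvζ.le)

/-- **The inertia group is transitive on the roots of `X^e + p`.** -/
theorem exists_mem_inertia_apply_eq {e : ℕ} (he : 0 < e) {π ζ : Qb} (hπ : π ^ e = -(p : Qb))
    (hζ : ζ ^ e = 1) : ∃ τ ∈ P.inertiaSubgroupIn ℚ, τ π = ζ * π := by
  classical
  haveI := Fermat.Agent.BR2.TameRho.isAlgebraic_Qbar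
  haveI : IsGalois ℚ Qb := Fermat.Agent.S54.FrobExists.isGalois_rat_algebraicClosure
  by_contra hcon0
  have hcon : ∀ τ ∈ P.inertiaSubgroupIn ℚ, τ π ≠ ζ * π := fun τ hτ h => hcon0 ⟨τ, hτ, h⟩
  have hp0 : (p : Qb) ≠ 0 := Nat.cast_ne_zero.mpr hp.ne_zero
  have hπ0 : π ≠ 0 := by
    intro h0
    rw [h0, zero_pow he.ne'] at hπ
    exact hp0 (neg_eq_zero.mp hπ.symm)
  have hvp : P.valuation (p : Qb) < 1 := (P.mem_nonunits_iff).mp hP
  have hvπe : P.valuation π ^ e = P.valuation (p : Qb) := by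
    rw [← map_pow, hπ, Valuation.map_neg]
  have hvπ1 : P.valuation π < 1 := by
    by_contra h
    rw [not_lt] at h
    have h1 : 1 ≤ P.valuation π ^ e := one_le_pow₀ h
    rw [hvπe] at h1
    exact absurd hvp (not_lt.mpr h1)
  have hvπ0 : 0 < P.valuation π := zero_lt_iff.mpr ((Valuation.ne_zero_iff _).mpr hπ0)
  -- the polynomial
  let f : Qb[X] := X ^ e + C (p : Qb)
  have hf0 : f ≠ 0 := (monic_X_pow_add_C _ he.ne').ne_zero
  have hfdeg : f.natDegree = e := natDegree_X_pow_add_C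
  let R : Finset Qb := f.roots.toFinset
  have hR : ∀ y, y ∈ R ↔ y ^ e = -(p : Qb) := by
    intro y
    rw [Multiset.mem_toFinset, mem_roots hf0, IsRoot.def]
    simp only [f, eval_add, eval_pow, eval_X, eval_C]
    constructor
    · intro h; exact eq_neg_of_add_eq_zero_left h
    · intro h; rw [h]; ring
  have hRcard : R.card ≤ e := (Multiset.toFinset_card_le _).trans ((card_roots' f).trans hfdeg.le)
  let S : Finset Qb := R.filter (fun y => ∃ s ∈ P.inertiaSubgroupIn ℚ, y = s π)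
  have hπS : π ∈ S := Finset.mem_filter.mpr ⟨(hR π).mpr hπ, 1, one_mem _, rfl⟩
  have hζπR : ζ * π ∈ R := (hR _).mpr (by rw [mul_pow, hζ, one_mul, hπ])
  have hζπS : ζ * π ∉ S := by
    intro h
    obtain ⟨-, s, hs, h2⟩ := Finset.mem_filter.mp h
    exact hcon s hs h2.symm
  have hScard : S.card < e := by
    have h1 : S ⊆ R.erase (ζ * π) := by
      intro y hy
      rw [Finset.mem_erase]
      exact ⟨fun h => hζπS (h ▸ hy), (Finset.mem_filter.mp hy).1⟩
    have h2 := Finset.card_le_card h1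
    rw [Finset.card_erase_of_mem hζπR] at h2
    have h3 : 0 < R.card := Finset.card_pos.mpr ⟨_, hζπR⟩
    omega
  have hstab : ∀ σ ∈ P.inertiaSubgroupIn ℚ, ∀ y ∈ S, σ y ∈ S := by
    intro σ hσ y hy
    obtain ⟨hyR, s, hs, rfl⟩ := Finset.mem_filter.mp hy
    refine Finset.mem_filter.mpr ⟨(hR _).mpr ?_, σ * s, mul_mem hσ hs, rfl⟩
    rw [← map_pow, ← map_pow, hπ]
    simp
  have hval : ∀ y ∈ S, P.valuation y = P.valuation π := by
    intro y hy
    obtain ⟨-, s, hs, rfl⟩ := Finset.mem_filter.mp hy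
    exact val_apply (Fermat.Agent.S05.mem_decompositionSubgroup_of_mem_inertiaSubgroupIn P hs) π
  have hmain := Fermat.Agent.S13.valuation_pow_card_le_of_inertia_stable P hp hP S ⟨π, hπS⟩ hstab
    hπ0 hvπ1 hval
  rw [← hvπe] at hmain
  have h4 : P.valuation π ^ e < P.valuation π ^ S.card :=
    pow_lt_pow_right_of_lt_one₀ hvπ0 hvπ1 hScard
  exact absurd hmain (not_le.mpr h4)

/-- a power of an inertia element acts on a root of `X^e + p` by the power of the root of unity -/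
theorem pow_apply_eq_of_apply_eq {e : ℕ} (he : ¬ p ∣ e) {π ζ : Qb} (hζ : ζ ^ e = 1)
    {s : GQ} (hs : s ∈ P.inertiaSubgroupIn ℚ) {n : ℕ} (h : s π = ζ ^ n * π) (j : ℕ) :
    (s ^ j) π = ζ ^ (n * j) * π := by
  induction j with
  | zero => simp
  | succ j ih =>
    rw [pow_succ', AlgEquiv.mul_apply, ih, map_mul, map_pow,
      apply_eq_of_mem_inertia_of_pow_eq_one hp P hP he hζ hs, h, ← mul_assoc, ← pow_add]
    congr 2

/-- **A Frobenius element at `P` fixing a given root of `X^e + p`.** -/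
theorem exists_isFrobeniusAt_apply_eq {e : ℕ} (he : 0 < e) {π : Qb} (hπ : π ^ e = -(p : Qb)) :
    ∃ φ : GQ, P.IsFrobeniusAt φ p ∧ φ π = π := by
  haveI := Fermat.Agent.BR2.TameRho.isAlgebraic_Qbar
  obtain ⟨φ₀, hφ₀⟩ := Fermat.Agent.Cheb.exists_isFrobeniusAt_of_liesOverPrime hp hP
  have hp0 : (p : Qb) ≠ 0 := Nat.cast_ne_zero.mpr hp.ne_zero
  have hπ0 : π ≠ 0 := by
    intro h0
    rw [h0, zero_pow he.ne'] at hπ
    exact hp0 (neg_eq_zero.mp hπ.symm)
  -- `φ₀ π = ζ π` with `ζ ^ e = 1`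
  have hζ : (φ₀ π / π) ^ e = 1 := by
    rw [div_pow, ← map_pow, hπ]
    simp [hp0]
  obtain ⟨τ, hτ, hτπ⟩ := exists_mem_inertia_apply_eq hp P hP he hπ hζ
  have hτπ' : τ π = φ₀ π := by rw [hτπ]; field_simp
  have hτD := Fermat.Agent.S05.mem_decompositionSubgroup_of_mem_inertiaSubgroupIn P hτ
  have hτinv : τ⁻¹ ∈ P.inertiaSubgroupIn ℚ := inv_mem hτ
  refine ⟨τ⁻¹ * φ₀, ?_, ?_⟩
  · rw [isFrobeniusAt_iff] at hφ₀ ⊢
    refine ⟨mul_mem (inv_mem hτD) hφ₀.1, fun y hy => ?_⟩
    have h1 : (τ⁻¹ * φ₀) y - y ^ p = (τ⁻¹ (φ₀ y) - φ₀ y) + (φ₀ y - y ^ p) := by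
      rw [AlgEquiv.mul_apply]; ring
    rw [h1]
    apply Valuation.map_add_lt _ _ (hφ₀.2 y hy)
    exact Fermat.Agent.S05.valuation_apply_sub_lt_one P hτinv
      ((P.valuation_le_one_iff _).mpr (apply_mem hφ₀.1 hy))
  · rw [AlgEquiv.mul_apply, ← hτπ']
    exact τ.symm_apply_apply π

omit hp hP in
/-- every automorphism multiplies a root of `X^e + p` by a power of a primitive `e`-th root of
unity. -/
theorem exists_apply_eq_pow_mul {e : ℕ} (he : 0 < e) {π ζ : Qb} (hπ : π ^ e = -(p : Qb))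
    (hp0 : p ≠ 0) (hζ : IsPrimitiveRoot ζ e) (σ : GQ) : ∃ n < e, σ π = ζ ^ n * π := by
  have hpQ : (p : Qb) ≠ 0 := Nat.cast_ne_zero.mpr hp0
  have hπ0 : π ≠ 0 := by
    intro h0
    rw [h0, zero_pow he.ne'] at hπ
    exact hpQ (neg_eq_zero.mp hπ.symm)
  have h1 : (σ π / π) ^ e = 1 := by
    rw [div_pow, ← map_pow, hπ]
    simp [hpQ]
  haveI : NeZero e := ⟨he.ne'⟩
  obtain ⟨n, hn, h2⟩ := hζ.eq_pow_of_pow_eq_one h1
  refine ⟨n, hn, ?_⟩
  rw [h2]
  field_simp

/-- powers of a Frobenius element on roots of unity of order prime to `p`. -/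
theorem IsFrobeniusAt_pow_apply_of_pow_eq_one {e : ℕ} (he : ¬ p ∣ e) {ζ : Qb} (hζ : ζ ^ e = 1)
    {φ : GQ} (hφ : P.IsFrobeniusAt φ p) (j : ℕ) : (φ ^ j) ζ = ζ ^ p ^ j := by
  induction j with
  | zero => simp
  | succ j ih =>
    rw [pow_succ', AlgEquiv.mul_apply, ih, pow_succ, pow_mul]
    apply IsFrobeniusAt_apply_of_pow_eq_one hp P hP he _ hφ
    rw [← pow_mul, mul_comm, pow_mul, hζ, one_pow]

end Fermat.Agent.TW.Shape
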